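import Mathlib
import Fermat.Agent.S48.Eis1.KronS

/-!
# The `z`-derivative of the Kronecker–Eisenstein function

`kron z τ = c(u) + ∑_{m ≥ 1} (q^m/(u - q^m) - u q^m/(1 - u q^m))`, `u = e(z)`, `q = e(τ)`.
Differentiating termwise,
`d/dz kron z τ = -2πi · wpE u q`,
`wpE u q = u/(1-u)² + ∑_{m ≥ 1} (u q^m/(u - q^m)² + u q^m/(1 - u q^m)²)`
(the Weierstrass function `(2πi)⁻² ℘(z; ℤ + ℤτ)` up to the additive term `E₂(τ)/12`).
-/

set_option autoImplicit false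

noncomputable section

open Complex Filter Topology

namespace Fermat.Agent.S48.B.B1.Wp.DKron

open Fermat.Agent.S48.Eis1.Kron Fermat.Agent.S48.Eis1.KronZ Fermat.Agent.S48.Eis1.KronS

/-- the central term `u / (1 - u)²` -/
def pT (u : ℂ) : ℂ := u / (1 - u) ^ 2

/-- `u q^m / (u - q^m)²` -/
def paTerm (u q : ℂ) (m : ℕ) : ℂ := u * q ^ m / (u - q ^ m) ^ 2

/-- `u q^m / (1 - u q^m)²` -/
def pbTerm (u q : ℂ) (m : ℕ) : ℂ := u * q ^ m / (1 - u * q ^ m) ^ 2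

/-- the `m`-th term (`m ≥ 0` stands for the index `m + 1`) -/
def pTerm (u q : ℂ) (m : ℕ) : ℂ := paTerm u q (m + 1) + pbTerm u q (m + 1)

/-- `(2πi)⁻² ℘ - E₂/12` in the variables `u = e(z)`, `q = e(τ)` -/
def wpE (u q : ℂ) : ℂ := pT u + ∑' m : ℕ, pTerm u q m

/-! ### Bounds and summability -/

theorem norm_paTerm_le {u q : ℂ} {m : ℕ} (h : 2 * ‖q‖ ^ m ≤ ‖u‖) (hu : u ≠ 0) :
    ‖paTerm u q m‖ ≤ 4 / ‖u‖ * ‖q‖ ^ m := by
  have hu' : 0 < ‖u‖ := norm_pos_iff.mpr hu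
  have h1 : ‖u‖ / 2 ≤ ‖u - q ^ m‖ := by
    have h2 : ‖u‖ - ‖q ^ m‖ ≤ ‖u - q ^ m‖ := norm_sub_norm_le u (q ^ m)
    rw [norm_pow] at h2
    linarith
  have h3 : 0 < ‖u - q ^ m‖ := lt_of_lt_of_le (half_pos hu') h1
  unfold paTerm
  rw [norm_div, norm_mul, norm_pow, norm_pow, div_le_iff₀ (pow_pos h3 2)]
  have h4 : (‖u‖ / 2) ^ 2 ≤ ‖u - q ^ m‖ ^ 2 := pow_le_pow_left₀ (half_pos hu').le h1 2
  have h5 : 0 ≤ 4 / ‖u‖ * ‖q‖ ^ m := by positivity
  calc ‖u‖ * ‖q‖ ^ m = 4 / ‖u‖ * ‖q‖ ^ m * (‖u‖ / 2) ^ 2 := by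
        field_simp
        ring
    _ ≤ 4 / ‖u‖ * ‖q‖ ^ m * ‖u - q ^ m‖ ^ 2 := mul_le_mul_of_nonneg_left h4 h5

theorem norm_pbTerm_le {u q : ℂ} {m : ℕ} (h : 2 * (‖u‖ * ‖q‖ ^ m) ≤ 1) :
    ‖pbTerm u q m‖ ≤ 4 * ‖u‖ * ‖q‖ ^ m := by
  have h1 : 1 / 2 ≤ ‖1 - u * q ^ m‖ := by
    have h2 : ‖(1 : ℂ)‖ - ‖u * q ^ m‖ ≤ ‖1 - u * q ^ m‖ := norm_sub_norm_le 1 (u * q ^ m)
    rw [norm_one, norm_mul, norm_pow] at h2
    linarith
  have h3 : 0 < ‖1 - u * q ^ m‖ := lt_of_lt_of_le (by norm_num) h1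
  unfold pbTerm
  rw [norm_div, norm_mul, norm_pow, norm_pow, div_le_iff₀ (pow_pos h3 2)]
  have h4 : ((1 : ℝ) / 2) ^ 2 ≤ ‖1 - u * q ^ m‖ ^ 2 := pow_le_pow_left₀ (by norm_num) h1 2
  have h5 : 0 ≤ 4 * ‖u‖ * ‖q‖ ^ m := by positivity
  calc ‖u‖ * ‖q‖ ^ m = 4 * ‖u‖ * ‖q‖ ^ m * ((1 : ℝ) / 2) ^ 2 := by ring
    _ ≤ 4 * ‖u‖ * ‖q‖ ^ m * ‖1 - u * q ^ m‖ ^ 2 := mul_le_mul_of_nonneg_left h4 h5

theorem summable_paTerm {u q : ℂ} (hq : ‖q‖ < 1) (hu : u ≠ 0) : Summable (paTerm u q) := by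
  have hu' : 0 < ‖u‖ := norm_pos_iff.mpr hu
  refine Summable.of_norm_bounded_eventually_nat
    ((summable_geometric_of_lt_one (norm_nonneg q) hq).mul_left (4 / ‖u‖)) ?_
  filter_upwards [eventually_pow_le hq (half_pos hu')] with m hm
  exact norm_paTerm_le (by linarith) hu

theorem summable_pbTerm {u q : ℂ} (hq : ‖q‖ < 1) : Summable (pbTerm u q) := by
  refine Summable.of_norm_bounded_eventually_nat
    ((summable_geometric_of_lt_one (norm_nonneg q) hq).mul_left (4 * ‖u‖)) ?_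
  have hc : 0 < 1 / (2 * (‖u‖ + 1)) := by positivity
  filter_upwards [eventually_pow_le hq hc] with m hm
  refine norm_pbTerm_le ?_
  have h1 : ‖u‖ * ‖q‖ ^ m ≤ ‖u‖ * (1 / (2 * (‖u‖ + 1))) :=
    mul_le_mul_of_nonneg_left hm (norm_nonneg u)
  have h2 : ‖u‖ * (1 / (2 * (‖u‖ + 1))) ≤ 1 / 2 := by
    rw [mul_one_div, div_le_div_iff₀ (by positivity) (by norm_num)]
    nlinarith [norm_nonneg u]
  linarith

theorem summable_pTerm {u q : ℂ} (hq : ‖q‖ < 1) (hu : u ≠ 0) : Summable (pTerm u q) :=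
  ((summable_nat_add_iff 1).mpr (summable_paTerm hq hu)).add
    ((summable_nat_add_iff 1).mpr (summable_pbTerm hq))

/-! ### Derivatives of the terms -/

theorem hasDerivAt_cTerm_ee {z0 : ℂ} (h : ee z0 ≠ 1) :
    HasDerivAt (fun z => cTerm (ee z)) (-(2 * Real.pi * I) * pT (ee z0)) z0 := by
  have h1 : ee z0 - 1 ≠ 0 := sub_ne_zero.mpr h
  have h2 : (2 : ℂ) * (ee z0 - 1) ≠ 0 := mul_ne_zero two_ne_zero h1
  have hd := hasDerivAt_ee z0
  have hnum : HasDerivAt (fun z => ee z + 1) (2 * Real.pi * I * ee z0) z0 := hd.add_const 1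
  have hden : HasDerivAt (fun z => 2 * (ee z - 1)) (2 * (2 * Real.pi * I * ee z0)) z0 :=
    (hd.sub_const 1).const_mul 2
  have h3 := hnum.div hden h2
  have h3' : HasDerivAt (fun z => cTerm (ee z)) _ z0 := h3
  refine h3'.congr_deriv ?_
  unfold pT
  have h4 : (1 - ee z0) ≠ 0 := by
    intro h5
    exact h (sub_eq_zero.mp h5).symm
  field_simp
  ring

theorem hasDerivAt_aTerm_ee {q z0 : ℂ} (m : ℕ) (h : ee z0 ≠ q ^ m) :
    HasDerivAt (fun z => aTerm (ee z) q m) (-(2 * Real.pi * I) * paTerm (ee z0) q m) z0 := by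
  have h1 : ee z0 - q ^ m ≠ 0 := sub_ne_zero.mpr h
  have hd := hasDerivAt_ee z0
  have hden : HasDerivAt (fun z => ee z - q ^ m) (2 * Real.pi * I * ee z0) z0 :=
    hd.sub_const _
  have h3 := (hasDerivAt_const z0 (q ^ m)).div hden h1
  have h3' : HasDerivAt (fun z => aTerm (ee z) q m) _ z0 := h3
  refine h3'.congr_deriv ?_
  unfold paTerm
  field_simp
  ring

theorem hasDerivAt_bTerm_ee {q z0 : ℂ} (m : ℕ) (h : ee z0 * q ^ m ≠ 1) :
    HasDerivAt (fun z => bTerm (ee z) q m) (2 * Real.pi * I * pbTerm (ee z0) q m) z0 := by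
  have h1 : 1 - ee z0 * q ^ m ≠ 0 := by
    intro h0
    exact h (sub_eq_zero.mp h0).symm
  have hd := hasDerivAt_ee z0
  have hnum : HasDerivAt (fun z => ee z * q ^ m) (2 * Real.pi * I * ee z0 * q ^ m) z0 :=
    hd.mul_const _
  have hden : HasDerivAt (fun z => 1 - ee z * q ^ m) (-(2 * Real.pi * I * ee z0 * q ^ m)) z0 :=
    hnum.const_sub 1
  have h3 := hnum.div hden h1
  have h3' : HasDerivAt (fun z => bTerm (ee z) q m) _ z0 := h3
  refine h3'.congr_deriv ?_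
  unfold pbTerm
  field_simp
  ring

theorem hasDerivAt_kTerm_ee {q z0 : ℂ} (m : ℕ) (h1 : ee z0 ≠ q ^ (m + 1))
    (h2 : ee z0 * q ^ (m + 1) ≠ 1) :
    HasDerivAt (fun z => kTerm (ee z) q m) (-(2 * Real.pi * I) * pTerm (ee z0) q m) z0 := by
  have h3 := (hasDerivAt_aTerm_ee (m + 1) h1).sub (hasDerivAt_bTerm_ee (m + 1) h2)
  have h3' : HasDerivAt (fun z => kTerm (ee z) q m) _ z0 := h3
  refine h3'.congr_deriv ?_
  unfold pTerm
  ring

/-! ### The derivative of the tail, termwise -/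

/-- termwise differentiation of the tail of the series on an annulus `a < |u| < b` -/
theorem hasSum_deriv_tail {q : ℂ} (hq : ‖q‖ < 1) {a b : ℝ} (ha : 0 < a) {M : ℕ}
    (hM : ∀ m, M ≤ m → 2 * ‖q‖ ^ m ≤ a ∧ 2 * (b * ‖q‖ ^ m) ≤ 1) {z0 : ℂ}
    (hz0 : a < ‖ee z0‖ ∧ ‖ee z0‖ < b) :
    HasSum (fun m => deriv (fun z => kTerm (ee z) q (m + M)) z0)
      (deriv (fun z => ∑' m, kTerm (ee z) q (m + M)) z0) := by
  have hopen : IsOpen {z : ℂ | a < ‖ee z‖ ∧ ‖ee z‖ < b} :=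
    (isOpen_lt continuous_const continuous_ee.norm).inter
      (isOpen_lt continuous_ee.norm continuous_const)
  have hqn : ∀ m : ℕ, 0 ≤ ‖q‖ ^ m := fun m => pow_nonneg (norm_nonneg q) m
  refine hasSum_deriv_of_summable_norm
    (u := fun m => (2 / a + 2 * b) * ‖q‖ ^ (m + (M + 1))) ?_ ?_ hopen ?_ hz0
  · exact ((summable_nat_add_iff (M + 1)).mpr
      (summable_geometric_of_lt_one (norm_nonneg q) hq)).mul_left _
  · intro m z hz
    obtain ⟨hz1, hz2⟩ := hz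
    obtain ⟨h1, h2⟩ := hM (m + M + 1) (by omega)
    refine (differentiableAt_kTerm (m + M) ?_ ?_).differentiableWithinAt
    · intro h
      have h3 : ‖ee z‖ = ‖q‖ ^ (m + M + 1) := by rw [h, norm_pow]
      have := hqn (m + M + 1)
      linarith
    · intro h
      have h3 : ‖ee z‖ * ‖q‖ ^ (m + M + 1) = 1 := by
        rw [← norm_pow, ← norm_mul, h, norm_one]
      have h4 : ‖ee z‖ * ‖q‖ ^ (m + M + 1) ≤ b * ‖q‖ ^ (m + M + 1) :=
        mul_le_mul_of_nonneg_right hz2.le (hqn _)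
      linarith
  · intro m z hz
    obtain ⟨hz1, hz2⟩ := hz
    obtain ⟨h1, h2⟩ := hM (m + M + 1) (by omega)
    have hu0 : ee z ≠ 0 := ee_ne_zero z
    have hupos : 0 < ‖ee z‖ := norm_pos_iff.mpr hu0
    have hA : ‖aTerm (ee z) q (m + M + 1)‖ ≤ 2 / a * ‖q‖ ^ (m + M + 1) := by
      refine (norm_aTerm_le (by linarith) hu0).trans ?_
      refine mul_le_mul_of_nonneg_right ?_ (hqn _)
      exact div_le_div_of_nonneg_left (by norm_num) ha hz1.le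
    have hB : ‖bTerm (ee z) q (m + M + 1)‖ ≤ 2 * b * ‖q‖ ^ (m + M + 1) := by
      have h4 : ‖ee z‖ * ‖q‖ ^ (m + M + 1) ≤ b * ‖q‖ ^ (m + M + 1) :=
        mul_le_mul_of_nonneg_right hz2.le (hqn _)
      refine (norm_bTerm_le (by linarith)).trans ?_
      refine mul_le_mul_of_nonneg_right ?_ (hqn _)
      linarith
    have h5 : kTerm (ee z) q (m + M) =
        aTerm (ee z) q (m + M + 1) - bTerm (ee z) q (m + M + 1) := rfl
    rw [h5]
    refine (norm_sub_le _ _).trans ?_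
    have h6 : m + (M + 1) = m + M + 1 := by ring
    rw [h6]
    linarith

/-- **the derivative of the Kronecker–Eisenstein function in `z`** -/
theorem hasDerivAt_kron {τ z0 : ℂ} (hτ : 0 < τ.im) (h : NotLat z0 τ) :
    HasDerivAt (fun z => kron z τ) (-(2 * Real.pi * I) * wpE (ee z0) (ee τ)) z0 := by
  have hq := norm_ee_lt_one hτ
  have hreg : Reg (ee z0) (ee τ) := reg_of_notLat h
  have hne1 : ee z0 ≠ 1 := ee_ne_one_of_notLat h
  have hu0 : 0 < ‖ee z0‖ := norm_pos_iff.mpr (ee_ne_zero z0)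
  have ha : 0 < ‖ee z0‖ / 2 := half_pos hu0
  have hb : 0 < 2 * ‖ee z0‖ := by linarith
  have hc : 0 < 1 / (2 * (2 * ‖ee z0‖)) := by positivity
  obtain ⟨M, hM⟩ := eventually_atTop.mp
    ((eventually_pow_le hq (half_pos ha)).and (eventually_pow_le hq hc))
  have hM' : ∀ m, M ≤ m → 2 * ‖ee τ‖ ^ m ≤ ‖ee z0‖ / 2 ∧
      2 * (2 * ‖ee z0‖ * ‖ee τ‖ ^ m) ≤ 1 := by
    intro m hm
    obtain ⟨h1, h2⟩ := hM m hm
    refine ⟨by linarith, ?_⟩
    have h3 : 2 * (2 * ‖ee z0‖) * ‖ee τ‖ ^ m ≤ 2 * (2 * ‖ee z0‖) * (1 / (2 * (2 * ‖ee z0‖))) :=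
      mul_le_mul_of_nonneg_left h2 (by positivity)
    have h4 : 2 * (2 * ‖ee z0‖) * (1 / (2 * (2 * ‖ee z0‖))) = 1 := by
      field_simp
    linarith
  have hz0 : ‖ee z0‖ / 2 < ‖ee z0‖ ∧ ‖ee z0‖ < 2 * ‖ee z0‖ := ⟨by linarith, by linarith⟩
  have htail := hasSum_deriv_tail hq ha hM' hz0
  have htaild := differentiableOn_tail hq ha hb hM'
  have hmem : {z : ℂ | ‖ee z0‖ / 2 < ‖ee z‖ ∧ ‖ee z‖ < 2 * ‖ee z0‖} ∈ 𝓝 z0 := by
    have hopen : IsOpen {z : ℂ | ‖ee z0‖ / 2 < ‖ee z‖ ∧ ‖ee z‖ < 2 * ‖ee z0‖} :=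
      (isOpen_lt continuous_const continuous_ee.norm).inter
        (isOpen_lt continuous_ee.norm continuous_const)
    exact hopen.mem_nhds hz0
  -- the derivatives of the terms
  have hterm : ∀ m, HasDerivAt (fun z => kTerm (ee z) (ee τ) m)
      (-(2 * Real.pi * I) * pTerm (ee z0) (ee τ) m) z0 :=
    fun m => hasDerivAt_kTerm_ee m (hreg m).1 (hreg m).2
  -- the tail
  have htail2 : HasDerivAt (fun z => ∑' m, kTerm (ee z) (ee τ) (m + M))
      (∑' m, -(2 * Real.pi * I) * pTerm (ee z0) (ee τ) (m + M)) z0 := by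
    have h1 := (htaild.differentiableAt hmem).hasDerivAt
    have h2 : deriv (fun z => ∑' m, kTerm (ee z) (ee τ) (m + M)) z0
        = ∑' m, -(2 * Real.pi * I) * pTerm (ee z0) (ee τ) (m + M) := by
      rw [← htail.tsum_eq]
      exact tsum_congr fun m => (hterm (m + M)).deriv
    rwa [h2] at h1
  -- the head
  have hhead : HasDerivAt (fun z => ∑ m ∈ Finset.range M, kTerm (ee z) (ee τ) m)
      (∑ m ∈ Finset.range M, -(2 * Real.pi * I) * pTerm (ee z0) (ee τ) m) z0 :=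
    HasDerivAt.fun_sum fun m _ => hterm m
  have hsplit : (fun z => ∑' m, kTerm (ee z) (ee τ) m) =
      fun z => (∑ m ∈ Finset.range M, kTerm (ee z) (ee τ) m) +
        ∑' m, kTerm (ee z) (ee τ) (m + M) := by
    funext z
    exact ((summable_kTerm hq (ee_ne_zero z)).sum_add_tsum_nat_add M).symm
  have hsum : HasDerivAt (fun z => ∑' m, kTerm (ee z) (ee τ) m)
      (-(2 * Real.pi * I) * ∑' m, pTerm (ee z0) (ee τ) m) z0 := by
    rw [hsplit]
    have h1 := hhead.add htail2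
    refine h1.congr_deriv ?_
    have hs : Summable (fun m => -(2 * Real.pi * I) * pTerm (ee z0) (ee τ) m) :=
      (summable_pTerm hq (ee_ne_zero z0)).mul_left _
    rw [← tsum_mul_left, ← hs.sum_add_tsum_nat_add M]
  have hall := (hasDerivAt_cTerm_ee hne1).add hsum
  have hall' : HasDerivAt (fun z => kron z τ) _ z0 := hall
  refine hall'.congr_deriv ?_
  unfold wpE
  ring

end Fermat.Agent.S48.B.B1.Wp.DKron
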