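import Mathlib
import Fermat.Agent.S48.Eis1.KronSL
import Fermat.Agent.S48.B.B1.Wp.DKron

/-!
# The weight-two law of the Weierstrass function in `q`-product form

Differentiating in `z` the laws of the Kronecker–Eisenstein function `kron z τ`
(periodicity, oddness, the `SL₂(ℤ)` law `kron (z/j) (γτ) = j kron z τ + c z`) we get those of
`wpE (e z) (e τ)`:
it is even and periodic for `ℤ + ℤτ`, and
`wpE (e (z/j)) (e (γτ)) = j² wpE (e z) (e τ) - c j / (2πi)`.
The inhomogeneous term is removed by Mathlib's `E₂`: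
`wpz z τ = 12 wpE (e z) (e τ) + E₂(τ)` satisfies `wpz (z / j) (γ τ) = j² wpz z τ`.
-/

set_option autoImplicit false

noncomputable section

open Complex Filter Topology

open UpperHalfPlane hiding I

open scoped MatrixGroups

namespace Fermat.Agent.S48.B.B1.Wp.Law

open Fermat.Agent.S48.Eis1.Kron Fermat.Agent.S48.Eis1.KronZ Fermat.Agent.S48.Eis1.KronS
  Fermat.Agent.S48.Eis1.KronSL Fermat.Agent.S48.B.B1.Wp.DKron

/-- the complement of the lattice is open -/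
theorem eventually_notLat {τ z : ℂ} (hτ : 0 < τ.im) (h : NotLat z τ) :
    ∀ᶠ w in 𝓝 z, NotLat w τ := by
  have h1 := (pp τ hτ).compl_lattice_sdiff_singleton_mem_nhds z
  filter_upwards [h1] with w hw
  rw [← notMem_lattice_iff hτ]
  intro hwL
  apply hw
  refine ⟨hwL, ?_⟩
  intro hwz
  rw [Set.mem_singleton_iff] at hwz
  rw [hwz] at hwL
  exact (notMem_lattice_iff hτ).mpr h hwL

/-! ### Periodicity and parity -/

theorem wpE_add_one (z q : ℂ) : wpE (ee (z + 1)) q = wpE (ee z) q := by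
  rw [ee_add_one]

theorem wpE_add_tau {τ z : ℂ} (hτ : 0 < τ.im) (h : NotLat z τ) :
    wpE (ee (z + τ)) (ee τ) = wpE (ee z) (ee τ) := by
  have h1 : HasDerivAt (fun w => kron (w + τ) τ)
      (-(2 * Real.pi * I) * wpE (ee (z + τ)) (ee τ)) z :=
    (hasDerivAt_kron hτ h.add_tau).comp_add_const z τ
  have h2 : HasDerivAt (fun w => kron w τ - 1)
      (-(2 * Real.pi * I) * wpE (ee z) (ee τ)) z :=
    (hasDerivAt_kron hτ h).sub_const 1
  have h3 : (fun w => kron (w + τ) τ) =ᶠ[𝓝 z] fun w => kron w τ - 1 := by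
    filter_upwards [eventually_notLat hτ h] with w hw
    exact kron_add_tau_of_notLat hτ hw
  have h4 := (h1.congr_of_eventuallyEq h3.symm).unique h2
  exact mul_left_cancel₀ (neg_ne_zero.mpr Complex.two_pi_I_ne_zero) h4

theorem wpE_neg {τ z : ℂ} (hτ : 0 < τ.im) (h : NotLat z τ) :
    wpE (ee (-z)) (ee τ) = wpE (ee z) (ee τ) := by
  have h1 : HasDerivAt (fun w => kron (-w) τ)
      (-(-(2 * Real.pi * I) * wpE (ee (-z)) (ee τ))) z := by
    have h0 := (hasDerivAt_kron hτ h.neg).comp z (hasDerivAt_neg z)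
    have h0' : HasDerivAt (fun w => kron (-w) τ) _ z := h0
    refine h0'.congr_deriv ?_
    ring
  have h2 : HasDerivAt (fun w => -kron w τ)
      (-(-(2 * Real.pi * I) * wpE (ee z) (ee τ))) z :=
    (hasDerivAt_kron hτ h).neg
  have h3 : (fun w => kron (-w) τ) = fun w => -kron w τ := by
    funext w
    exact kron_neg w τ
  rw [h3] at h1
  have h4 := neg_injective (h1.unique h2)
  exact mul_left_cancel₀ (neg_ne_zero.mpr Complex.two_pi_I_ne_zero) h4

/-! ### The `SL₂(ℤ)` law -/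

theorem wpE_SL (γ : SL(2, ℤ)) {τ z : ℂ} (hτ : 0 < τ.im) (hz : NotLat z τ) :
    wpE (ee (z / jj γ τ)) (ee (mob γ τ)) =
      jj γ τ ^ 2 * wpE (ee z) (ee τ) - (γ 1 0 : ℂ) * jj γ τ / (2 * Real.pi * I) := by
  have hj := jj_ne_zero γ hτ
  have hτ' := im_mob_pos γ hτ
  have hz' := NotLat.mob γ hτ hz
  -- the derivative of the left hand side of `kron_SL`
  have hdiv : HasDerivAt (fun w : ℂ => w / jj γ τ) (1 / jj γ τ) z := by
    have := (hasDerivAt_id z).div_const (jj γ τ)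
    simpa using this
  have h0 := (hasDerivAt_kron hτ' hz').comp z hdiv
  have h1 : HasDerivAt (fun w => kron (w / jj γ τ) (mob γ τ))
      (-(2 * Real.pi * I) * wpE (ee (z / jj γ τ)) (ee (mob γ τ)) * (1 / jj γ τ)) z := h0
  -- the derivative of the right hand side
  have h2 : HasDerivAt (fun w => jj γ τ * kron w τ + (γ 1 0 : ℂ) * w)
      (jj γ τ * (-(2 * Real.pi * I) * wpE (ee z) (ee τ)) + (γ 1 0 : ℂ) * 1) z :=
    ((hasDerivAt_kron hτ hz).const_mul (jj γ τ)).add ((hasDerivAt_id z).const_mul (γ 1 0 : ℂ))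
  have h3 : (fun w => kron (w / jj γ τ) (mob γ τ)) =ᶠ[𝓝 z]
      fun w => jj γ τ * kron w τ + (γ 1 0 : ℂ) * w := by
    filter_upwards [eventually_notLat hτ hz] with w hw
    exact kron_SL γ hτ hw
  have h4 := (h1.congr_of_eventuallyEq h3.symm).unique h2
  have h5 := Complex.two_pi_I_ne_zero
  have h6 : wpE (ee (z / jj γ τ)) (ee (mob γ τ)) =
      (jj γ τ * (-(2 * Real.pi * I) * wpE (ee z) (ee τ)) + (γ 1 0 : ℂ) * 1) * jj γ τ
        / (-(2 * Real.pi * I)) := by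
    rw [← h4]
    field_simp
  rw [h6]
  field_simp
  ring

/-! ### Removing the inhomogeneous term with `E₂` -/

/-- `12 (2πi)⁻² ℘(z; ℤ + ℤτ)` -/
def wpz (z : ℂ) (τ : ℍ) : ℂ := 12 * wpE (ee z) (ee (τ : ℂ)) + EisensteinSeries.E2 τ

theorem jj_eq_denom (γ : SL(2, ℤ)) (τ : ℍ) : jj γ (τ : ℂ) = denom γ τ := by
  rw [ModularGroup.denom_apply]
  unfold jj
  simp

theorem mob_eq_coe_smul (γ : SL(2, ℤ)) (τ : ℍ) : mob γ (τ : ℂ) = ((γ • τ : ℍ) : ℂ) :=
  mob_eq_smul γ τ.im_pos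

theorem E2_smul (γ : SL(2, ℤ)) (τ : ℍ) :
    EisensteinSeries.E2 (γ • τ) =
      denom γ τ ^ 2 * EisensteinSeries.E2 τ
        - 12 * (-(γ 1 0 : ℂ) * denom γ τ / (2 * Real.pi * I)) := by
  have h := congrFun (EisensteinSeries.E2_slash_action γ) τ
  rw [ModularForm.SL_slash_apply] at h
  have hd : denom γ τ ≠ 0 := denom_ne_zero γ τ
  have h1 : EisensteinSeries.E2 (γ • τ) =
      (EisensteinSeries.E2 - (1 / (2 * riemannZeta 2)) • EisensteinSeries.D2 γ) τ
        * denom γ τ ^ 2 := by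
    rw [← h, mul_assoc, ← zpow_natCast, ← zpow_add₀ hd]
    simp
  rw [h1, Pi.sub_apply, Pi.smul_apply, smul_eq_mul, EisensteinSeries.D2, riemannZeta_two]
  have hpi : (Real.pi : ℂ) ≠ 0 := by exact_mod_cast Real.pi_ne_zero
  have hI : I ≠ 0 := I_ne_zero
  field_simp
  ring_nf
  rw [I_sq]
  ring

/-- **the weight-two law** -/
theorem wpz_SL (γ : SL(2, ℤ)) (τ : ℍ) {z : ℂ} (hz : NotLat z (τ : ℂ)) :
    wpz (z / denom γ τ) (γ • τ) = denom γ τ ^ 2 * wpz z τ := by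
  unfold wpz
  rw [← mob_eq_coe_smul, ← jj_eq_denom, wpE_SL γ τ.im_pos hz, jj_eq_denom, E2_smul]
  ring

theorem wpz_add_one (z : ℂ) (τ : ℍ) : wpz (z + 1) τ = wpz z τ := by
  unfold wpz
  rw [wpE_add_one]

theorem wpz_add_tau {z : ℂ} (τ : ℍ) (hz : NotLat z (τ : ℂ)) : wpz (z + (τ : ℂ)) τ = wpz z τ := by
  unfold wpz
  rw [wpE_add_tau τ.im_pos hz]

theorem wpz_neg {z : ℂ} (τ : ℍ) (hz : NotLat z (τ : ℂ)) : wpz (-z) τ = wpz z τ := by
  unfold wpz
  rw [wpE_neg τ.im_pos hz]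

end Fermat.Agent.S48.B.B1.Wp.Law
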