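import Mathlib
import Fermat.Agent.S48.Eis1.KronTors
import Fermat.Agent.S48.B.B1.Wp.Law

/-!
# Division values of the Weierstrass function: the weight-two family `℘_{(r,s)}`

`wpTors N r s τ = 12 (2πi)⁻² ℘((r τ + s)/N; ℤ + ℤτ)` for `(r, s) ≢ (0, 0) mod N`:
`wpTors N v ∣[2] γ = wpTors N (v γ)` for every `γ ∈ SL₂(ℤ)` (row vector convention), the value
depends on `v` modulo `N` only, and `wpTors N (-v) = wpTors N v`.
-/

set_option autoImplicit false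

noncomputable section

open Complex Filter Topology

open UpperHalfPlane hiding I

open scoped MatrixGroups ModularForm

namespace Fermat.Agent.S48.B.B1.Wp.Tors

open Fermat.Agent.S48.Eis1.KronZ Fermat.Agent.S48.Eis1.KronS
  Fermat.Agent.S48.Eis1.KronSL Fermat.Agent.S48.Eis1.KronTors Fermat.Agent.S48.B.B1.Wp.DKron
  Fermat.Agent.S48.B.B1.Wp.Law

/-! ### Periodicity for the whole lattice -/

theorem wpz_add_int (z : ℂ) (τ : ℍ) (m : ℤ) : wpz (z + m) τ = wpz z τ := by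
  unfold wpz
  rw [ee_add, ee_intCast, mul_one]

theorem wpz_sub_tau {z : ℂ} (τ : ℍ) (hz : NotLat z (τ : ℂ)) : wpz (z - (τ : ℂ)) τ = wpz z τ := by
  have h := wpz_add_tau τ hz.sub_tau
  rw [sub_add_cancel] at h
  exact h.symm

theorem notLat_add_int_mul {z τ : ℂ} (hz : NotLat z τ) (n : ℤ) : NotLat (z + n * τ) τ := by
  have := hz.add_int 0 n
  simpa using this

theorem wpz_add_int_mul_tau {z : ℂ} (τ : ℍ) (hz : NotLat z (τ : ℂ)) (n : ℤ) :
    wpz (z + n * (τ : ℂ)) τ = wpz z τ := by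
  induction n using Int.induction_on with
  | zero => simp
  | succ k ih =>
    have h1 : z + ((k + 1 : ℤ) : ℂ) * (τ : ℂ) = (z + (k : ℂ) * (τ : ℂ)) + (τ : ℂ) := by
      push_cast
      ring
    rw [h1, wpz_add_tau τ (by exact_mod_cast notLat_add_int_mul hz k)]
    exact_mod_cast ih
  | pred k ih =>
    have h1 : z + ((-(k : ℤ) - 1 : ℤ) : ℂ) * (τ : ℂ) = (z + ((-(k : ℤ) : ℤ) : ℂ) * (τ : ℂ)) - (τ : ℂ) := by
      push_cast
      ring
    rw [h1, wpz_sub_tau τ (notLat_add_int_mul hz (-(k : ℤ)))]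
    exact ih

theorem wpz_add_lattice {z : ℂ} (τ : ℍ) (hz : NotLat z (τ : ℂ)) (m n : ℤ) :
    wpz (z + (m + n * (τ : ℂ))) τ = wpz z τ := by
  have h1 : z + ((m : ℂ) + n * (τ : ℂ)) = (z + n * (τ : ℂ)) + m := by ring
  rw [h1, wpz_add_int, wpz_add_int_mul_tau τ hz]

/-! ### The family -/

/-- `12 (2πi)⁻² ℘((r τ + s)/N; ℤ + ℤτ)` -/
def wpTors (N : ℕ) (r s : ℤ) (τ : ℍ) : ℂ := wpz (((r : ℂ) * (τ : ℂ) + s) / N) τ

theorem wpTors_congr {N : ℕ} (hN : N ≠ 0) {r s r' s' : ℤ} (h : Prim N r s)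
    (hr : (N : ℤ) ∣ r' - r) (hs : (N : ℤ) ∣ s' - s) (τ : ℍ) :
    wpTors N r' s' τ = wpTors N r s τ := by
  have hN' : (N : ℂ) ≠ 0 := by exact_mod_cast hN
  obtain ⟨k, hk⟩ := hr
  obtain ⟨l, hl⟩ := hs
  have hr' : r' = r + N * k := by omega
  have hs' : s' = s + N * l := by omega
  unfold wpTors
  have h1 : ((r' : ℂ) * (τ : ℂ) + s') / N
      = ((r : ℂ) * (τ : ℂ) + s) / N + ((l : ℂ) + k * (τ : ℂ)) := by
    rw [hr', hs']
    push_cast
    field_simp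
    ring
  rw [h1, wpz_add_lattice τ (notLat_tors hN h τ.im_pos)]

theorem wpTors_neg {N : ℕ} (hN : N ≠ 0) {r s : ℤ} (h : Prim N r s) (τ : ℍ) :
    wpTors N (-r) (-s) τ = wpTors N r s τ := by
  unfold wpTors
  have h1 : (((-r : ℤ) : ℂ) * (τ : ℂ) + ((-s : ℤ) : ℂ)) / N = -(((r : ℂ) * (τ : ℂ) + s) / N) := by
    push_cast
    ring
  rw [h1, wpz_neg τ (notLat_tors hN h τ.im_pos)]

/-- **the weight-two law of the family** (row vector convention) -/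
theorem wpTors_slash {N : ℕ} (hN : N ≠ 0) {r s : ℤ} (h : Prim N r s) (γ : SL(2, ℤ)) :
    wpTors N r s ∣[(2 : ℤ)] γ = wpTors N (r * γ 0 0 + s * γ 1 0) (r * γ 0 1 + s * γ 1 1) := by
  funext τ
  have hN' : (N : ℂ) ≠ 0 := by exact_mod_cast hN
  have hd : denom γ τ ≠ 0 := denom_ne_zero γ τ
  have hz := notLat_tors hN (h.mul γ) τ.im_pos
  have hlaw := wpz_SL γ τ hz
  have hzz : ((((r * γ 0 0 + s * γ 1 0 : ℤ) : ℂ)) * (τ : ℂ) + ((r * γ 0 1 + s * γ 1 1 : ℤ) : ℂ)) / N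
      / denom γ τ = ((r : ℂ) * ((γ • τ : ℍ) : ℂ) + s) / N := by
    rw [← mob_eq_coe_smul, ← jj_eq_denom]
    unfold mob
    have hj : jj γ (τ : ℂ) ≠ 0 := jj_ne_zero γ τ.im_pos
    have hj' : jj γ (τ : ℂ) = (γ 1 0 : ℂ) * (τ : ℂ) + (γ 1 1 : ℂ) := rfl
    field_simp
    rw [hj']
    push_cast
    ring
  rw [hzz] at hlaw
  rw [ModularForm.SL_slash_apply]
  unfold wpTors
  rw [hlaw, mul_comm, ← mul_assoc, ← zpow_natCast, ← zpow_add₀ hd]
  simp

end Fermat.Agent.S48.B.B1.Wp.Tors
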