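import Mathlib
import Fermat.Agent.S48.B.B1.Wp.Tors

/-!
# Holomorphy in `τ` and boundedness at `i∞` of the division values of `℘`

With `t = e(τ/N)`, `ζ = e(s/N)` and `0 ≤ r < N`, `u = e((rτ+s)/N) = ζ t^r`, `q = e(τ) = t^N` and
`wpE u q = L(ζ t^r) + ∑_{m ≥ 1} (L(ζ⁻¹ t^{Nm-r}) + L(ζ t^{Nm+r}))`, `L(x) = x/(1-x)²`:
a series of holomorphic functions of `τ` with the majorant `2 ρ^m/(1-ρ)²` on `Im τ > c`,
`ρ = exp(-2πc/N)`.
-/

set_option autoImplicit false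

noncomputable section

open Complex Filter Topology

open UpperHalfPlane hiding I

open scoped MatrixGroups ModularForm Manifold

namespace Fermat.Agent.S48.B.B1.Wp.Holo

open Fermat.Agent.S48.Eis1.KronZ Fermat.Agent.S48.Eis1.KronS
  Fermat.Agent.S48.Eis1.KronSL Fermat.Agent.S48.Eis1.KronTors Fermat.Agent.S48.B.B1.Wp.DKron
  Fermat.Agent.S48.B.B1.Wp.Law Fermat.Agent.S48.B.B1.Wp.Tors

/-! ### The function `L(x) = x/(1-x)²` -/

theorem norm_pT_le {x : ℂ} {δ : ℝ} (hx : ‖x‖ ≤ δ) (hδ : δ < 1) :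
    ‖pT x‖ ≤ ‖x‖ / (1 - δ) ^ 2 := by
  have h1 : 1 - δ ≤ ‖1 - x‖ := by
    have h2 : ‖(1 : ℂ)‖ - ‖x‖ ≤ ‖1 - x‖ := norm_sub_norm_le 1 x
    rw [norm_one] at h2
    linarith
  have h0 : 0 < 1 - δ := by linarith
  have h3 : 0 < ‖1 - x‖ := lt_of_lt_of_le h0 h1
  unfold pT
  rw [norm_div, norm_pow]
  exact div_le_div_of_nonneg_left (norm_nonneg x) (pow_pos h0 2) (pow_le_pow_left₀ h0.le h1 2)

theorem differentiableAt_pT {x : ℂ} (hx : x ≠ 1) : DifferentiableAt ℂ pT x := by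
  unfold pT
  refine differentiableAt_id.div (((differentiableAt_const _).sub differentiableAt_id).pow 2) ?_
  exact pow_ne_zero 2 (sub_ne_zero.mpr (Ne.symm hx))

/-! ### The variable `t = e(τ/N)` -/

/-- `t = e(τ/N)` -/
def tN (N : ℕ) (τ : ℂ) : ℂ := ee (τ / N)

theorem tN_ne_zero (N : ℕ) (τ : ℂ) : tN N τ ≠ 0 := ee_ne_zero _

theorem tN_pow {N : ℕ} (hN : N ≠ 0) (τ : ℂ) : tN N τ ^ N = ee τ := by
  have hN' : (N : ℂ) ≠ 0 := by exact_mod_cast hN
  unfold tN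
  rw [ee_pow]
  congr 1
  field_simp

theorem norm_tN (N : ℕ) (τ : ℂ) : ‖tN N τ‖ = Real.exp (-2 * Real.pi * (τ.im / N)) := by
  unfold tN
  rw [norm_ee]
  congr 2
  have : (τ / (N : ℂ)).im = τ.im / N := by
    have h : (N : ℂ) = ((N : ℝ) : ℂ) := by norm_cast
    rw [h, Complex.div_ofReal_im]
  rw [this]

theorem differentiable_tN (N : ℕ) : Differentiable ℂ (tN N) := by
  unfold tN
  exact differentiable_ee.comp (differentiable_id.div_const _)

theorem norm_tN_lt_one {N : ℕ} (hN : N ≠ 0) {τ : ℂ} (hτ : 0 < τ.im) : ‖tN N τ‖ < 1 := by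
  rw [norm_tN, Real.exp_lt_one_iff]
  have h1 : 0 < τ.im / N := div_pos hτ (by exact_mod_cast Nat.pos_of_ne_zero hN)
  have := Real.pi_pos
  nlinarith

/-- on `Im τ ≥ c` we have `|t| ≤ exp(-2πc/N)` -/
theorem norm_tN_le {N : ℕ} (hN : N ≠ 0) {τ : ℂ} {c : ℝ} (hτ : c ≤ τ.im) :
    ‖tN N τ‖ ≤ Real.exp (-2 * Real.pi * (c / N)) := by
  rw [norm_tN, Real.exp_le_exp]
  have hN' : (0 : ℝ) < N := by exact_mod_cast Nat.pos_of_ne_zero hN
  have h1 : c / N ≤ τ.im / N := div_le_div_of_nonneg_right hτ hN'.le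
  have := Real.pi_pos
  nlinarith

/-- the root of unity `ζ = e(s/N)` -/
def zetaN (N : ℕ) (s : ℤ) : ℂ := ee ((s : ℂ) / N)

theorem norm_zetaN (N : ℕ) (s : ℤ) : ‖zetaN N s‖ = 1 := by
  unfold zetaN
  rw [norm_ee]
  have : ((s : ℂ) / (N : ℂ)).im = 0 := by
    have h : (N : ℂ) = ((N : ℝ) : ℂ) := by norm_cast
    have h' : (s : ℂ) = ((s : ℝ) : ℂ) := by norm_cast
    rw [h, h', Complex.div_ofReal_im, Complex.ofReal_im, zero_div]
  rw [this, mul_zero, Real.exp_zero]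

theorem zetaN_ne_zero (N : ℕ) (s : ℤ) : zetaN N s ≠ 0 := ee_ne_zero _

theorem zetaN_ne_one {N : ℕ} (hN : N ≠ 0) {s : ℤ} (h : ¬ (N : ℤ) ∣ s) : zetaN N s ≠ 1 := by
  have hN' : (N : ℂ) ≠ 0 := by exact_mod_cast hN
  intro h1
  unfold zetaN at h1
  obtain ⟨n, hn⟩ := ee_eq_one_iff.mp h1
  apply h
  refine ⟨n, ?_⟩
  have h2 : (s : ℂ) = (N : ℂ) * (n : ℂ) := by
    field_simp at hn
    exact hn
  have h3 : (s : ℂ) = ((N * n : ℤ) : ℂ) := by
    rw [h2]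
    push_cast
    rfl
  exact_mod_cast h3

theorem ee_tors (N : ℕ) (r : ℕ) (s : ℤ) (τ : ℂ) :
    ee (((r : ℂ) * τ + s) / N) = zetaN N s * tN N τ ^ r := by
  unfold zetaN tN
  rw [ee_pow, ← ee_add]
  congr 1
  ring

/-! ### The terms in the variable `t` -/

theorem pbTerm_eq (ζ t : ℂ) (N r m : ℕ) :
    pbTerm (ζ * t ^ r) (t ^ N) m = pT (ζ * t ^ (N * m + r)) := by
  unfold pbTerm pT
  have h1 : ζ * t ^ r * (t ^ N) ^ m = ζ * t ^ (N * m + r) := by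
    rw [← pow_mul, pow_add]
    ring
  rw [h1]

theorem paTerm_eq {ζ t : ℂ} (hζ : ζ ≠ 0) (ht : t ≠ 0) {N r m : ℕ} (h : r ≤ N * m)
    (hne : ζ ≠ t ^ (N * m - r)) :
    paTerm (ζ * t ^ r) (t ^ N) m = pT (ζ⁻¹ * t ^ (N * m - r)) := by
  unfold paTerm pT
  have h1 : (t ^ N) ^ m = t ^ r * t ^ (N * m - r) := by
    rw [← pow_mul, ← pow_add]
    congr 1
    omega
  rw [h1]
  have h2 : ζ - t ^ (N * m - r) ≠ 0 := sub_ne_zero.mpr hne
  have h3 : t ^ r ≠ 0 := pow_ne_zero r ht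
  have h4 : 1 - ζ⁻¹ * t ^ (N * m - r) ≠ 0 := by
    intro h5
    apply h2
    have : ζ * (1 - ζ⁻¹ * t ^ (N * m - r)) = ζ - t ^ (N * m - r) := by
      field_simp
    rw [← this, h5, mul_zero]
  have h5 : ζ * t ^ r - t ^ r * t ^ (N * m - r) = t ^ r * (ζ - t ^ (N * m - r)) := by ring
  rw [h5]
  field_simp

/-- the `m`-th term of the series in the variable `τ` -/
def fTerm (N r : ℕ) (s : ℤ) (m : ℕ) (τ : ℂ) : ℂ :=
  pT ((zetaN N s)⁻¹ * tN N τ ^ (N * (m + 1) - r)) + pT (zetaN N s * tN N τ ^ (N * (m + 1) + r))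

theorem exponent_ge {N r : ℕ} (hr : r < N) (m : ℕ) : m + 1 ≤ N * (m + 1) - r := by
  have h1 : N * (m + 1) = N * m + N := by ring
  have h2 : m ≤ N * m := Nat.le_mul_of_pos_left m (by omega)
  omega

theorem norm_pow_lt_one {t : ℂ} (ht : ‖t‖ < 1) {k : ℕ} (hk : k ≠ 0) : ‖t ^ k‖ < 1 := by
  rw [norm_pow]
  exact pow_lt_one₀ (norm_nonneg t) ht hk

theorem pTerm_tors {N : ℕ} (hN : N ≠ 0) {r : ℕ} (hr : r < N) (s : ℤ) {τ : ℂ} (hτ : 0 < τ.im)
    (m : ℕ) :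
    pTerm (ee (((r : ℂ) * τ + s) / N)) (ee τ) m = fTerm N r s m τ := by
  have ht := norm_tN_lt_one hN hτ
  have hge := exponent_ge hr m
  unfold pTerm fTerm
  rw [ee_tors N, ← tN_pow hN τ, pbTerm_eq, paTerm_eq (zetaN_ne_zero N s) (tN_ne_zero N τ)
    (by omega)]
  intro h1
  have h2 := norm_pow_lt_one ht (k := N * (m + 1) - r) (by omega)
  rw [← h1, norm_zetaN] at h2
  exact lt_irrefl 1 h2

/-- **the series in the variable `τ`** -/
theorem wpE_tors {N : ℕ} (hN : N ≠ 0) {r : ℕ} (hr : r < N) (s : ℤ) {τ : ℂ} (hτ : 0 < τ.im) :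
    wpE (ee (((r : ℂ) * τ + s) / N)) (ee τ) =
      pT (zetaN N s * tN N τ ^ r) + ∑' m, fTerm N r s m τ := by
  unfold wpE
  rw [tsum_congr (pTerm_tors hN hr s hτ), ee_tors N]

/-! ### Bounds -/

theorem norm_fTerm_le {N : ℕ} {r : ℕ} (hr : r < N) (s : ℤ) {τ : ℂ} {ρ : ℝ}
    (hρ : ρ < 1) (ht : ‖tN N τ‖ ≤ ρ) (m : ℕ) :
    ‖fTerm N r s m τ‖ ≤ 2 / (1 - ρ) ^ 2 * ρ ^ (m + 1) := by
  have hρ0 : 0 ≤ ρ := (norm_nonneg _).trans ht
  have hge := exponent_ge hr m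
  have h1 : ∀ k : ℕ, m + 1 ≤ k → ∀ c : ℂ, ‖c‖ = 1 →
      ‖pT (c * tN N τ ^ k)‖ ≤ ρ ^ (m + 1) / (1 - ρ) ^ 2 := by
    intro k hk c hc
    have h2 : ‖c * tN N τ ^ k‖ ≤ ρ ^ (m + 1) := by
      rw [norm_mul, hc, one_mul, norm_pow]
      exact (pow_le_pow_left₀ (norm_nonneg _) ht k).trans
        (pow_le_pow_of_le_one hρ0 hρ.le hk)
    have h3 : ρ ^ (m + 1) ≤ ρ := by
      calc ρ ^ (m + 1) ≤ ρ ^ 1 := pow_le_pow_of_le_one hρ0 hρ.le (by omega)
        _ = ρ := pow_one ρ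
    refine (norm_pT_le (h2.trans h3) hρ).trans ?_
    exact div_le_div_of_nonneg_right h2 (by positivity)
  unfold fTerm
  refine (norm_add_le _ _).trans ?_
  have hz : ‖(zetaN N s)⁻¹‖ = 1 := by rw [norm_inv, norm_zetaN, inv_one]
  have ha := h1 (N * (m + 1) - r) hge _ hz
  have hb := h1 (N * (m + 1) + r) (by omega) _ (norm_zetaN N s)
  have : 2 / (1 - ρ) ^ 2 * ρ ^ (m + 1) = ρ ^ (m + 1) / (1 - ρ) ^ 2 + ρ ^ (m + 1) / (1 - ρ) ^ 2 := by
    ring
  rw [this]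
  exact add_le_add ha hb

theorem differentiableAt_fTerm {N : ℕ} (hN : N ≠ 0) {r : ℕ} (hr : r < N) (s : ℤ) (m : ℕ) {τ : ℂ}
    (hτ : 0 < τ.im) : DifferentiableAt ℂ (fTerm N r s m) τ := by
  have ht := norm_tN_lt_one hN hτ
  have hge := exponent_ge hr m
  have h1 : ∀ k : ℕ, k ≠ 0 → ∀ c : ℂ, ‖c‖ = 1 →
      DifferentiableAt ℂ (fun τ => pT (c * tN N τ ^ k)) τ := by
    intro k hk c hc
    have h2 : c * tN N τ ^ k ≠ 1 := by
      intro h3
      have h4 : ‖c * tN N τ ^ k‖ < 1 := by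
        rw [norm_mul, hc, one_mul]
        exact norm_pow_lt_one ht hk
      rw [h3, norm_one] at h4
      exact lt_irrefl 1 h4
    exact (differentiableAt_pT h2).comp τ
      ((differentiableAt_const c).mul (((differentiable_tN N) τ).pow k))
  have hz : ‖(zetaN N s)⁻¹‖ = 1 := by rw [norm_inv, norm_zetaN, inv_one]
  unfold fTerm
  exact (h1 _ (by omega) _ hz).add (h1 _ (by omega) _ (norm_zetaN N s))

/-- the series is holomorphic on the upper half plane -/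
theorem differentiableOn_tsum_fTerm {N : ℕ} (hN : N ≠ 0) {r : ℕ} (hr : r < N) (s : ℤ) :
    DifferentiableOn ℂ (fun τ => ∑' m, fTerm N r s m τ) {τ : ℂ | 0 < τ.im} := by
  intro τ0 hτ0
  have hτ0' : 0 < τ0.im := hτ0
  set c : ℝ := τ0.im / 2 with hc
  have hc0 : 0 < c := half_pos hτ0'
  set ρ : ℝ := Real.exp (-2 * Real.pi * (c / N)) with hρdef
  have hN' : (0 : ℝ) < N := by exact_mod_cast Nat.pos_of_ne_zero hN
  have hρ : ρ < 1 := by
    rw [hρdef, Real.exp_lt_one_iff]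
    have h1 : 0 < c / N := div_pos hc0 hN'
    have := Real.pi_pos
    nlinarith
  have hρ0 : 0 ≤ ρ := (Real.exp_pos _).le
  have hopen : IsOpen {τ : ℂ | c < τ.im} := isOpen_lt continuous_const Complex.continuous_im
  have hU : DifferentiableOn ℂ (fun τ => ∑' m, fTerm N r s m τ) {τ : ℂ | c < τ.im} := by
    refine differentiableOn_tsum_of_summable_norm
      (u := fun m => 2 / (1 - ρ) ^ 2 * ρ ^ (m + 1)) ?_ ?_ hopen ?_
    · exact ((summable_nat_add_iff 1).mpr (summable_geometric_of_lt_one hρ0 hρ)).mul_left _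
    · intro m τ hτ
      have hτ' : 0 < τ.im := hc0.trans hτ
      exact (differentiableAt_fTerm hN hr s m hτ').differentiableWithinAt
    · intro m τ hτ
      exact norm_fTerm_le hr s hρ (norm_tN_le hN (le_of_lt hτ)) m
  have hmem : {τ : ℂ | c < τ.im} ∈ 𝓝 τ0 := hopen.mem_nhds (by
    show c < τ0.im
    rw [hc]
    linarith)
  exact (hU.differentiableAt hmem).differentiableWithinAt

/-- the head term -/
theorem differentiableAt_head {N : ℕ} (hN : N ≠ 0) {r : ℕ} {s : ℤ}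
    (h : Prim N (r : ℤ) s) {τ : ℂ} (hτ : 0 < τ.im) :
    DifferentiableAt ℂ (fun τ => pT (zetaN N s * tN N τ ^ r)) τ := by
  have ht := norm_tN_lt_one hN hτ
  have h2 : zetaN N s * tN N τ ^ r ≠ 1 := by
    rcases Nat.eq_zero_or_pos r with hr0 | hr0
    · rw [hr0, pow_zero, mul_one]
      apply zetaN_ne_one hN
      intro hs
      apply h
      rw [hr0]
      exact ⟨by simp, hs⟩
    · intro h3
      have h4 : ‖zetaN N s * tN N τ ^ r‖ < 1 := by
        rw [norm_mul, norm_zetaN, one_mul]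
        exact norm_pow_lt_one ht (by omega)
      rw [h3, norm_one] at h4
      exact lt_irrefl 1 h4
  exact (differentiableAt_pT h2).comp τ
    ((differentiableAt_const _).mul (((differentiable_tN N) τ).pow r))

/-- the function of `τ ∈ ℂ` underlying `wpTors` (without `E₂`) -/
def gfun (N r : ℕ) (s : ℤ) (τ : ℂ) : ℂ := wpE (ee (((r : ℂ) * τ + s) / N)) (ee τ)

theorem differentiableOn_gfun {N : ℕ} (hN : N ≠ 0) {r : ℕ} (hr : r < N) {s : ℤ}
    (h : Prim N (r : ℤ) s) : DifferentiableOn ℂ (gfun N r s) {τ : ℂ | 0 < τ.im} := by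
  have h1 : ∀ τ ∈ {τ : ℂ | 0 < τ.im},
      gfun N r s τ = pT (zetaN N s * tN N τ ^ r) + ∑' m, fTerm N r s m τ :=
    fun τ hτ => wpE_tors hN hr s hτ
  refine DifferentiableOn.congr ?_ h1
  refine DifferentiableOn.add ?_ (differentiableOn_tsum_fTerm hN hr s)
  intro τ hτ
  exact (differentiableAt_head hN h hτ).differentiableWithinAt

/-- boundedness for `Im τ ≥ 1` -/
theorem exists_bound_gfun {N : ℕ} (hN : N ≠ 0) {r : ℕ} (hr : r < N) (s : ℤ) :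
    ∃ M : ℝ, ∀ τ : ℂ, 1 ≤ τ.im → ‖gfun N r s τ‖ ≤ M := by
  set ρ : ℝ := Real.exp (-2 * Real.pi * (1 / N)) with hρdef
  have hN' : (0 : ℝ) < N := by exact_mod_cast Nat.pos_of_ne_zero hN
  have hρ : ρ < 1 := by
    rw [hρdef, Real.exp_lt_one_iff]
    have h1 : (0 : ℝ) < 1 / N := div_pos one_pos hN'
    have := Real.pi_pos
    nlinarith
  have hρ0 : 0 ≤ ρ := (Real.exp_pos _).le
  have hsum : Summable (fun m : ℕ => 2 / (1 - ρ) ^ 2 * ρ ^ (m + 1)) :=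
    ((summable_nat_add_iff 1).mpr (summable_geometric_of_lt_one hρ0 hρ)).mul_left _
  refine ⟨max ‖pT (zetaN N s)‖ (ρ / (1 - ρ) ^ 2) + ∑' m : ℕ, 2 / (1 - ρ) ^ 2 * ρ ^ (m + 1), ?_⟩
  intro τ hτ
  have hτ0 : 0 < τ.im := lt_of_lt_of_le one_pos hτ
  have ht : ‖tN N τ‖ ≤ ρ := norm_tN_le hN hτ
  unfold gfun
  rw [wpE_tors hN hr s hτ0]
  refine (norm_add_le _ _).trans (add_le_add ?_ ?_)
  · rcases Nat.eq_zero_or_pos r with hr0 | hr0
    · rw [hr0, pow_zero, mul_one]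
      exact le_max_left _ _
    · refine le_trans ?_ (le_max_right _ _)
      have h2 : ‖zetaN N s * tN N τ ^ r‖ ≤ ρ := by
        rw [norm_mul, norm_zetaN, one_mul, norm_pow]
        calc ‖tN N τ‖ ^ r ≤ ρ ^ r := pow_le_pow_left₀ (norm_nonneg _) ht r
          _ ≤ ρ ^ 1 := pow_le_pow_of_le_one hρ0 hρ.le (by omega)
          _ = ρ := pow_one ρ
      refine (norm_pT_le h2 hρ).trans ?_
      exact div_le_div_of_nonneg_right h2 (by positivity)
  · have hs : Summable (fun m => ‖fTerm N r s m τ‖) :=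
      Summable.of_nonneg_of_le (fun _ => norm_nonneg _)
        (fun m => norm_fTerm_le hr s hρ ht m) hsum
    refine (norm_tsum_le_tsum_norm hs).trans ?_
    exact hs.tsum_le_tsum (fun m => norm_fTerm_le hr s hρ ht m) hsum

/-! ### The family on the upper half plane -/

theorem wpTors_eq_gfun (N r : ℕ) (s : ℤ) (τ : ℍ) :
    wpTors N (r : ℤ) s τ = 12 * gfun N r s (τ : ℂ) + EisensteinSeries.E2 τ := by
  unfold wpTors wpz gfun
  push_cast
  rfl

theorem mdiff_wpTors_nat {N : ℕ} (hN : N ≠ 0) {r : ℕ} (hr : r < N) {s : ℤ}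
    (h : Prim N (r : ℤ) s) : MDiff (wpTors N (r : ℤ) s) := by
  have h1 : wpTors N (r : ℤ) s
      = (fun τ : ℍ => 12 * gfun N r s (τ : ℂ)) + EisensteinSeries.E2 := by
    funext τ
    exact wpTors_eq_gfun N r s τ
  rw [h1]
  refine MDifferentiable.add ?_ E2_mdifferentiable
  rw [UpperHalfPlane.mdifferentiable_iff]
  have h2 := (differentiableOn_gfun hN hr h).const_mul (12 : ℂ)
  refine h2.congr ?_
  intro τ hτ
  show 12 * gfun N r s ((ofComplex τ : ℍ) : ℂ) = 12 * gfun N r s τ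
  rw [ofComplex_apply_of_im_pos hτ]

theorem isBoundedAtImInfty_wpTors_nat {N : ℕ} (hN : N ≠ 0) {r : ℕ} (hr : r < N) (s : ℤ) :
    IsBoundedAtImInfty (wpTors N (r : ℤ) s) := by
  obtain ⟨M, hM⟩ := exists_bound_gfun hN hr s
  obtain ⟨M2, A2, hM2⟩ := isBoundedAtImInfty_iff.mp EisensteinSeries.isBoundedAtImInfty_E2
  rw [isBoundedAtImInfty_iff]
  refine ⟨12 * M + M2, max 1 A2, ?_⟩
  intro τ hτ
  rw [wpTors_eq_gfun]
  refine (norm_add_le _ _).trans (add_le_add ?_ (hM2 τ ((le_max_right _ _).trans hτ)))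
  rw [norm_mul]
  have h12 : ‖(12 : ℂ)‖ = 12 := by norm_num
  rw [h12]
  have := hM (τ : ℂ) ((le_max_left _ _).trans hτ)
  linarith

/-! ### Reduction of a general `(r, s)` -/

theorem exists_nat_rep {N : ℕ} (hN : N ≠ 0) (r : ℤ) :
    ∃ r' : ℕ, r' < N ∧ (N : ℤ) ∣ (r' : ℤ) - r := by
  have hN' : (N : ℤ) ≠ 0 := by exact_mod_cast hN
  have h1 : 0 ≤ r % (N : ℤ) := Int.emod_nonneg r hN'
  have h2 : r % (N : ℤ) < N := Int.emod_lt_of_pos r (by omega)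
  refine ⟨(r % (N : ℤ)).toNat, by omega, ?_⟩
  rw [Int.toNat_of_nonneg h1]
  exact ⟨-(r / N), by rw [Int.emod_def]; ring⟩

theorem prim_of_dvd_sub {N : ℕ} {r r' s : ℤ} (h : Prim N r s) (hr : (N : ℤ) ∣ r' - r) :
    Prim N r' s := by
  intro h1
  apply h
  refine ⟨?_, h1.2⟩
  have := dvd_sub h1.1 hr
  simpa using this

theorem wpTors_eq_nat {N : ℕ} (hN : N ≠ 0) {r s : ℤ} (h : Prim N r s) :
    ∃ r' : ℕ, r' < N ∧ Prim N (r' : ℤ) s ∧ wpTors N r s = wpTors N (r' : ℤ) s := by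
  obtain ⟨r', hr', hdvd⟩ := exists_nat_rep hN r
  have hP := prim_of_dvd_sub h hdvd
  refine ⟨r', hr', hP, ?_⟩
  funext τ
  have hdvd' : (N : ℤ) ∣ r - (r' : ℤ) := by
    have := dvd_neg.mpr hdvd
    simpa using this
  exact wpTors_congr hN hP hdvd' (by simp) τ

/-- **holomorphy** of the division values -/
theorem mdiff_wpTors {N : ℕ} (hN : N ≠ 0) {r s : ℤ} (h : Prim N r s) : MDiff (wpTors N r s) := by
  obtain ⟨r', hr', hP, heq⟩ := wpTors_eq_nat hN h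
  rw [heq]
  exact mdiff_wpTors_nat hN hr' hP

/-- **boundedness at `i∞`** of the division values -/
theorem isBoundedAtImInfty_wpTors {N : ℕ} (hN : N ≠ 0) {r s : ℤ} (h : Prim N r s) :
    IsBoundedAtImInfty (wpTors N r s) := by
  obtain ⟨r', hr', hP, heq⟩ := wpTors_eq_nat hN h
  rw [heq]
  exact isBoundedAtImInfty_wpTors_nat hN hr' s

end Fermat.Agent.S48.B.B1.Wp.Holo
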