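import Mathlib
import Fermat.Agent.S48.B.B1.Wp.Holo

/-!
# PROJECT D, part B, block B1, brick W: the `q`-expansions of the division values of `℘`

For `(r, s) ≢ 0 mod N` and `τ ∈ ℍ`, with `q = e(τ)` and `ζ = e(s/N)`:

`wpTors N r s (N τ) = ∑ₙ wpCoeff N r s n qⁿ`,

`wpCoeff N r s n = 12 ∑_{d ∣ n} (n/d) ([d ≡ r] ζ^{n/d} + [d ≡ -r] ζ^{-n/d} - 2 [d ≡ 0])` for `n ≥ 1`
(congruences mod `N`), and constant term `1`, resp. `1 + 12 ζ/(1-ζ)²` when `N ∣ r`.

The proof is the Lambert regrouping `∑_m x^{e m}/(1 - x^{e m})² = ∑_n (∑_{d ∣ n, d ∈ range e} n/d) x^n`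
through Mathlib's `sigmaAntidiagonalEquivProd`, applied to the three residue classes.
-/

set_option autoImplicit false

open Complex Filter Topology

open UpperHalfPlane hiding I

open scoped MatrixGroups ModularForm Manifold

noncomputable section

namespace Fermat.Agent.S48.B.B1.Wp.QExp

open Fermat.Agent.S48.Eis1.KronZ Fermat.Agent.S48.Eis1.KronS Fermat.Agent.S48.Eis1.KronTors
open Fermat.Agent.S48.B.B1.Wp.DKron Fermat.Agent.S48.B.B1.Wp.Law Fermat.Agent.S48.B.B1.Wp.Tors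
open Fermat.Agent.S48.B.B1.Wp.Holo

/-! ### `pT` as a sum -/

theorem hasSum_pT_nat {x : ℂ} (hx : ‖x‖ < 1) : HasSum (fun k : ℕ => (k : ℂ) * x ^ k) (pT x) := by
  unfold pT
  exact hasSum_coe_mul_geometric_of_norm_lt_one hx

theorem hasSum_pT {x : ℂ} (hx : ‖x‖ < 1) :
    HasSum (fun k : ℕ+ => ((k : ℕ) : ℂ) * x ^ (k : ℕ)) (pT x) := by
  have h := hasSum_pT_nat hx
  rw [← PNat.coe_injective.hasSum_iff] at h
  · exact h
  · intro n hn
    have h0 : n = 0 := by
      by_contra h0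
      exact hn ⟨⟨n, Nat.pos_of_ne_zero h0⟩, rfl⟩
    subst h0
    simp

/-! ### The Lambert regrouping -/

/-- the Lambert coefficient `∑_{d ∣ n, S d} (n/d) c^{n/d}` -/
def lamCoeff (S : ℕ → Prop) [DecidablePred S] (c : ℂ) (n : ℕ) : ℂ :=
  ∑ d ∈ n.divisors, if S d then ((n / d : ℕ) : ℂ) * c ^ (n / d) else 0

/-- the double family -/
def lamF (S : ℕ → Prop) [DecidablePred S] (c t : ℂ) (p : ℕ+ × ℕ+) : ℂ :=
  if S p.1 then ((p.2 : ℕ) : ℂ) * c ^ (p.2 : ℕ) * t ^ ((p.1 : ℕ) * (p.2 : ℕ)) else 0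

theorem summable_lamF (S : ℕ → Prop) [DecidablePred S] {c t : ℂ} (hc : ‖c‖ ≤ 1) (ht : ‖t‖ < 1) :
    Summable (lamF S c t) := by
  have h0 := (summable_prod_mul_pow (𝕜 := ℂ) 1 ht).norm
  refine Summable.of_norm_bounded h0 ?_
  intro p
  unfold lamF
  split_ifs
  · rw [norm_mul, norm_mul, norm_mul, pow_one, norm_pow c]
    have h1 : ‖c‖ ^ (p.2 : ℕ) ≤ 1 := pow_le_one₀ (norm_nonneg c) hc
    have h2 : 0 ≤ ‖((p.2 : ℕ) : ℂ)‖ := norm_nonneg _
    have h3 : 0 ≤ ‖t ^ ((p.1 : ℕ) * (p.2 : ℕ))‖ := norm_nonneg _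
    calc ‖((p.2 : ℕ) : ℂ)‖ * ‖c‖ ^ (p.2 : ℕ) * ‖t ^ ((p.1 : ℕ) * (p.2 : ℕ))‖
        ≤ ‖((p.2 : ℕ) : ℂ)‖ * 1 * ‖t ^ ((p.1 : ℕ) * (p.2 : ℕ))‖ := by gcongr
      _ = ‖((p.2 : ℕ) : ℂ)‖ * ‖t ^ ((p.1 : ℕ) * (p.2 : ℕ))‖ := by rw [mul_one]
  · rw [norm_zero]
    exact norm_nonneg _

theorem hasSum_lamF_fst (S : ℕ → Prop) [DecidablePred S] {c t : ℂ} (hc : ‖c‖ ≤ 1)
    (ht : ‖t‖ < 1) :
    HasSum (fun d : ℕ+ => if S d then pT (c * t ^ (d : ℕ)) else 0) (∑' p, lamF S c t p) := by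
  refine (summable_lamF S hc ht).hasSum.prod_fiberwise ?_
  intro d
  by_cases hS : S d
  · have hx : ‖c * t ^ (d : ℕ)‖ < 1 := by
      rw [norm_mul]
      have h1 : ‖t ^ (d : ℕ)‖ < 1 := norm_pow_lt_one ht d.ne_zero
      calc ‖c‖ * ‖t ^ (d : ℕ)‖ ≤ 1 * ‖t ^ (d : ℕ)‖ := by gcongr
        _ < 1 := by rw [one_mul]; exact h1
    have h := hasSum_pT hx
    have e : (fun k : ℕ+ => lamF S c t (d, k))
        = fun k : ℕ+ => ((k : ℕ) : ℂ) * (c * t ^ (d : ℕ)) ^ (k : ℕ) := by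
      funext k
      unfold lamF
      rw [if_pos hS, mul_pow, ← pow_mul, mul_assoc]
    rw [e, if_pos hS]
    exact h
  · have e : (fun k : ℕ+ => lamF S c t (d, k)) = fun _ => 0 := by
      funext k
      unfold lamF
      rw [if_neg hS]
    rw [e, if_neg hS]
    exact hasSum_zero

theorem hasSum_lamCoeff (S : ℕ → Prop) [DecidablePred S] {c t : ℂ} (hc : ‖c‖ ≤ 1)
    (ht : ‖t‖ < 1) :
    HasSum (fun n : ℕ => lamCoeff S c n * t ^ n) (∑' p, lamF S c t p) := by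
  have h1 := (summable_lamF S hc ht).hasSum
  rw [← sigmaAntidiagonalEquivProd.hasSum_iff] at h1
  have h2 := h1.sigma (fun n => hasSum_fintype _)
  rw [← PNat.coe_injective.hasSum_iff]
  · refine h2.congr_fun ?_
    intro n
    show lamCoeff S c (n : ℕ) * t ^ (n : ℕ) = ∑ b : {x // x ∈ (n : ℕ).divisorsAntidiagonal},
      lamF S c t (sigmaAntidiagonalEquivProd ⟨n, b⟩)
    have e1 : ∀ b : {x // x ∈ (n : ℕ).divisorsAntidiagonal},
        lamF S c t (sigmaAntidiagonalEquivProd ⟨n, b⟩) =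
          (fun x : ℕ × ℕ => if S x.1 then ((x.2 : ℕ) : ℂ) * c ^ x.2 * t ^ (x.1 * x.2) else 0) b.1 :=
      fun b => rfl
    rw [Fintype.sum_congr _ _ e1,
      Finset.sum_coe_sort ((n : ℕ).divisorsAntidiagonal)
        (fun x : ℕ × ℕ => if S x.1 then ((x.2 : ℕ) : ℂ) * c ^ x.2 * t ^ (x.1 * x.2) else 0),
      Nat.sum_divisorsAntidiagonal
        (fun d k => if S d then ((k : ℕ) : ℂ) * c ^ k * t ^ (d * k) else 0)]
    unfold lamCoeff
    rw [Finset.sum_mul]
    refine Finset.sum_congr rfl ?_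
    intro d hd
    have hdn : d * ((n : ℕ) / d) = n := Nat.mul_div_cancel' (Nat.dvd_of_mem_divisors hd)
    by_cases hS : S d
    · rw [if_pos hS, if_pos hS, hdn]
    · rw [if_neg hS, if_neg hS, zero_mul]
  · intro n hn
    have h0 : n = 0 := by
      by_contra h0
      exact hn ⟨⟨n, Nat.pos_of_ne_zero h0⟩, rfl⟩
    subst h0
    unfold lamCoeff
    simp

/-- the sum of the double family -/
def lamSum (S : ℕ → Prop) [DecidablePred S] (c t : ℂ) : ℂ := ∑' p, lamF S c t p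

theorem hasSum_class {c t : ℂ} (hc : ‖c‖ ≤ 1) (ht : ‖t‖ < 1) (S : ℕ → Prop) [DecidablePred S]
    (e : ℕ → ℕ) (he : Function.Injective e) (hpos : ∀ m, 0 < e m)
    (hS : ∀ d, 0 < d → (S d ↔ ∃ m, e m = d)) :
    HasSum (fun m => pT (c * t ^ e m)) (lamSum S c t) := by
  have h := hasSum_lamF_fst S hc ht
  have he' : @Function.Injective ℕ ℕ+ (fun m => ⟨e m, hpos m⟩) :=
    fun a b hab => he (congrArg PNat.val hab)
  have h2 : HasSum ((fun d : ℕ+ => if S d then pT (c * t ^ (d : ℕ)) else 0) ∘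
      (fun m => (⟨e m, hpos m⟩ : ℕ+))) (lamSum S c t) := by
    refine (he'.hasSum_iff ?_).mpr h
    intro d hd
    have hnS : ¬ S d := fun hSd => by
      obtain ⟨m, hm⟩ := (hS d d.pos).mp hSd
      exact hd ⟨m, PNat.eq hm⟩
    show (if S d then pT (c * t ^ (d : ℕ)) else 0) = 0
    rw [if_neg hnS]
  refine h2.congr_fun ?_
  intro m
  show pT (c * t ^ e m) = if S (e m) then pT (c * t ^ (e m)) else 0
  rw [if_pos ((hS (e m) (hpos m)).mpr ⟨m, rfl⟩)]

/-! ### Residue classes -/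

/-- the class of `a` modulo `N` -/
abbrev clsP (N : ℕ) (a : ZMod N) (d : ℕ) : Prop := (d : ZMod N) = a

theorem class_iff {N : ℕ} {r' : ℕ} (h2 : r' ≤ N) {d : ℕ} (hd : 0 < d) :
    ((d : ZMod N) = (r' : ZMod N)) ↔ ∃ m, N * m + r' = d := by
  constructor
  · intro h
    have h3 : d % N = r' % N := (ZMod.natCast_eq_natCast_iff' d r' N).mp h
    have h4 : r' ≤ d := by
      rcases Nat.lt_or_ge r' N with h5 | h5
      · rw [Nat.mod_eq_of_lt h5] at h3
        rw [← h3]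
        exact Nat.mod_le d N
      · have h6 : r' = N := le_antisymm h2 h5
        subst h6
        rw [Nat.mod_self] at h3
        exact Nat.le_of_dvd hd (Nat.dvd_of_mod_eq_zero h3)
    have h5 : N ∣ d - r' := (Nat.modEq_iff_dvd' h4).mp h3.symm
    obtain ⟨m, hm⟩ := h5
    exact ⟨m, by omega⟩
  · rintro ⟨m, rfl⟩
    push_cast
    rw [ZMod.natCast_self, zero_mul, zero_add]

theorem eC_injective {N : ℕ} (hN : N ≠ 0) (r' : ℕ) :
    Function.Injective (fun m : ℕ => N * m + r') := by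
  intro a b h
  have h1 : N * a = N * b := Nat.add_right_cancel h
  exact Nat.eq_of_mul_eq_mul_left (Nat.pos_of_ne_zero hN) h1

theorem hasSum_classZ {N : ℕ} (hN : N ≠ 0) {c t : ℂ} (hc : ‖c‖ ≤ 1) (ht : ‖t‖ < 1) {r' : ℕ}
    (h1 : 1 ≤ r') (h2 : r' ≤ N) {a : ZMod N} (ha : (r' : ZMod N) = a) :
    HasSum (fun m : ℕ => pT (c * t ^ (N * m + r'))) (lamSum (clsP N a) c t) := by
  refine hasSum_class hc ht (clsP N a) (fun m => N * m + r') (eC_injective hN r')
    (fun m => by omega) ?_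
  intro d hd
  unfold clsP
  rw [← ha]
  exact class_iff h2 hd

/-! ### The elliptic part -/

theorem im_scale {N : ℕ} (hN : N ≠ 0) {τ : ℂ} (hτ : 0 < τ.im) : 0 < ((N : ℂ) * τ).im := by
  have h1 : ((N : ℂ) * τ).im = (N : ℝ) * τ.im := by
    rw [Complex.mul_im]
    simp
  rw [h1]
  exact mul_pos (Nat.cast_pos.mpr (Nat.pos_of_ne_zero hN)) hτ

theorem tN_scale {N : ℕ} (hN : N ≠ 0) (τ : ℂ) : tN N ((N : ℂ) * τ) = ee τ := by
  unfold tN
  congr 1
  have : (N : ℂ) ≠ 0 := Nat.cast_ne_zero.mpr hN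
  field_simp

theorem norm_zetaN_le (N : ℕ) (s : ℤ) : ‖zetaN N s‖ ≤ 1 := (norm_zetaN N s).le

theorem norm_zetaN_inv_le (N : ℕ) (s : ℤ) : ‖(zetaN N s)⁻¹‖ ≤ 1 := by
  rw [norm_inv, norm_zetaN, inv_one]

/-- the head term of the class `r` -/
def headC (N r : ℕ) (s : ℤ) : ℂ := if r = 0 then pT (zetaN N s) else 0

theorem wpE_scale {N : ℕ} (hN : N ≠ 0) {r : ℕ} (hr : r < N) (s : ℤ) {τ : ℂ} (hτ : 0 < τ.im) :
    wpE (ee (((r : ℂ) * ((N : ℂ) * τ) + s) / N)) (ee ((N : ℂ) * τ)) =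
      headC N r s + lamSum (clsP N (r : ZMod N)) (zetaN N s) (ee τ)
        + lamSum (clsP N (-(r : ZMod N))) (zetaN N s)⁻¹ (ee τ) := by
  have ht : ‖ee τ‖ < 1 := norm_ee_lt_one hτ
  rw [wpE_tors hN hr s (im_scale hN hτ), tN_scale hN]
  -- the class `-r`
  have hA : HasSum (fun m : ℕ => pT ((zetaN N s)⁻¹ * ee τ ^ (N * (m + 1) - r)))
      (lamSum (clsP N (-(r : ZMod N))) (zetaN N s)⁻¹ (ee τ)) := by
    have h1 := hasSum_classZ hN (norm_zetaN_inv_le N s) ht (r' := N - r) (by omega) (by omega)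
      (a := -(r : ZMod N)) (by rw [Nat.cast_sub hr.le, ZMod.natCast_self, zero_sub])
    refine h1.congr_fun ?_
    intro m
    have e : N * (m + 1) - r = N * m + (N - r) := by
      have : N * (m + 1) = N * m + N := by ring
      omega
    rw [e]
  -- the class `r`
  have hB : HasSum (fun m : ℕ => pT (zetaN N s * ee τ ^ (N * (m + 1) + r)))
      (lamSum (clsP N (r : ZMod N)) (zetaN N s) (ee τ) + headC N r s - pT (zetaN N s * ee τ ^ r)) := by
    rcases Nat.eq_zero_or_pos r with h0 | h0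
    · subst h0
      have h1 := hasSum_classZ hN (norm_zetaN_le N s) ht (r' := N) (by omega) le_rfl
        (a := ((0 : ℕ) : ZMod N)) (by rw [ZMod.natCast_self, Nat.cast_zero])
      have e2 : lamSum (clsP N ((0 : ℕ) : ZMod N)) (zetaN N s) (ee τ) + headC N 0 s
          - pT (zetaN N s * ee τ ^ 0) = lamSum (clsP N ((0 : ℕ) : ZMod N)) (zetaN N s) (ee τ) := by
        unfold headC
        rw [if_pos rfl, pow_zero, mul_one]
        ring
      rw [e2]
      refine h1.congr_fun ?_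
      intro m
      have e : N * (m + 1) + 0 = N * m + N := by
        have := Nat.mul_succ N m
        omega
      rw [e]
    · have h1 := hasSum_classZ hN (norm_zetaN_le N s) ht (r' := r) (by omega) hr.le
        (a := (r : ZMod N)) rfl
      have h2 := (hasSum_nat_add_iff' 1).mpr h1
      have e2 : lamSum (clsP N (r : ZMod N)) (zetaN N s) (ee τ) + headC N r s
          - pT (zetaN N s * ee τ ^ r) = lamSum (clsP N (r : ZMod N)) (zetaN N s) (ee τ)
            - ∑ i ∈ Finset.range 1, pT (zetaN N s * ee τ ^ (N * i + r)) := by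
        unfold headC
        rw [if_neg (by omega), Finset.sum_range_one, Nat.mul_zero, Nat.zero_add]
        ring
      rw [e2]
      refine h2.congr_fun ?_
      intro m
      rfl
  have hsum := (hA.add hB).tsum_eq
  have e3 : (∑' m, fTerm N r s m ((N : ℂ) * τ)) = ∑' m : ℕ,
      (pT ((zetaN N s)⁻¹ * ee τ ^ (N * (m + 1) - r)) + pT (zetaN N s * ee τ ^ (N * (m + 1) + r))) := by
    refine tsum_congr ?_
    intro m
    unfold fTerm
    rw [tN_scale hN]
  rw [e3, hsum]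
  ring

/-! ### The Eisenstein part -/

theorem tsum_sigma_eq_lamSum {N : ℕ} (hN : N ≠ 0) {τ : ℂ} (hτ : 0 < τ.im) :
    (∑' n : ℕ+, (ArithmeticFunction.sigma 1 n : ℂ) * ee ((N : ℂ) * τ) ^ (n : ℕ))
      = lamSum (clsP N (0 : ZMod N)) 1 (ee τ) := by
  have ht : ‖ee τ‖ < 1 := norm_ee_lt_one hτ
  have hQ : ‖ee ((N : ℂ) * τ)‖ < 1 := norm_ee_lt_one (im_scale hN hτ)
  have h1 := tsum_prod_pow_eq_tsum_sigma (𝕜 := ℂ) 1 hQ
  rw [← h1]
  have h2 : ∀ d : ℕ+, (∑' c : ℕ+, ((c : ℕ) : ℂ) ^ 1 * ee ((N : ℂ) * τ) ^ ((d : ℕ) * (c : ℕ)))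
      = pT (ee ((N : ℂ) * τ) ^ (d : ℕ)) := by
    intro d
    have h3 := (hasSum_pT (norm_pow_lt_one hQ d.ne_zero)).tsum_eq
    rw [← h3]
    refine tsum_congr ?_
    intro c
    rw [pow_one, pow_mul]
  rw [tsum_congr h2, tsum_pnat_eq_tsum_succ (f := fun d : ℕ => pT (ee ((N : ℂ) * τ) ^ d))]
  have h4 := (hasSum_classZ hN (c := 1) (by rw [norm_one]) ht (r' := N) (by omega) le_rfl
    (a := (0 : ZMod N)) (ZMod.natCast_self N)).tsum_eq
  rw [← h4]
  refine tsum_congr ?_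
  intro m
  rw [one_mul, ← ee_pow τ N, ← pow_mul]
  congr 2

/-! ### The expansion -/

/-- the point `N τ` of the upper half plane -/
def scaleH (N : ℕ) (hN : N ≠ 0) (τ : ℍ) : ℍ := ⟨(N : ℂ) * (τ : ℂ), im_scale hN τ.im_pos⟩

theorem coe_scaleH (N : ℕ) (hN : N ≠ 0) (τ : ℍ) : ((scaleH N hN τ : ℍ) : ℂ) = (N : ℂ) * (τ : ℂ) :=
  rfl

/-- **the `q`-expansion coefficients of the division values**:
`12 ∑_{d ∣ n} (n/d) ([d ≡ r] ζ^{n/d} + [d ≡ -r] ζ^{-n/d} - 2 [d ≡ 0])`, `ζ = e(s/N)`, with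
constant term `1`, resp. `1 + 12 ζ/(1-ζ)²` when `N ∣ r`. -/
def wpCoeff (N : ℕ) (r s : ℤ) (n : ℕ) : ℂ :=
  if n = 0 then (if (N : ℤ) ∣ r then 12 * pT (zetaN N s) + 1 else 1)
  else 12 * ∑ d ∈ n.divisors, ((n / d : ℕ) : ℂ) *
    ((if ((d : ℕ) : ZMod N) = (r : ZMod N) then zetaN N s ^ (n / d) else 0)
      + (if ((d : ℕ) : ZMod N) = -(r : ZMod N) then (zetaN N s)⁻¹ ^ (n / d) else 0)
      - 2 * (if ((d : ℕ) : ZMod N) = 0 then 1 else 0))

/-- the combination of the three Lambert coefficients -/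
def rawCoeff (N r : ℕ) (s : ℤ) (n : ℕ) : ℂ :=
  12 * (lamCoeff (clsP N (r : ZMod N)) (zetaN N s) n
      + lamCoeff (clsP N (-(r : ZMod N))) (zetaN N s)⁻¹ n)
    - 24 * lamCoeff (clsP N (0 : ZMod N)) 1 n
    + (if n = 0 then 12 * headC N r s + 1 else 0)

theorem rawCoeff_eq {N : ℕ} {r : ℕ} (hr : r < N) (s : ℤ) (n : ℕ) :
    rawCoeff N r s n = wpCoeff N (r : ℤ) s n := by
  unfold rawCoeff wpCoeff
  rcases Nat.eq_zero_or_pos n with h0 | h0
  · subst h0
    unfold lamCoeff headC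
    rw [Nat.divisors_zero, Finset.sum_empty, Finset.sum_empty, Finset.sum_empty, if_pos rfl,
      if_pos rfl]
    have hiff : ((N : ℤ) ∣ (r : ℤ)) ↔ r = 0 := by
      constructor
      · intro h
        have h1 : N ∣ r := Int.natCast_dvd_natCast.mp h
        exact Nat.eq_zero_of_dvd_of_lt h1 hr
      · intro h
        rw [h]
        exact dvd_zero _
    by_cases h : r = 0
    · rw [if_pos h, if_pos (hiff.mpr h)]
      ring
    · rw [if_neg h, if_neg (fun h' => h (hiff.mp h'))]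
      ring
  · rw [if_neg (by omega), if_neg (by omega), add_zero]
    unfold lamCoeff clsP
    rw [← Finset.sum_add_distrib, Finset.mul_sum, Finset.mul_sum, ← Finset.sum_sub_distrib,
      Finset.mul_sum]
    refine Finset.sum_congr rfl ?_
    intro d _
    rw [Int.cast_natCast, one_pow]
    split_ifs <;> ring

theorem ee_eq_qParam (τ : ℂ) : ee τ = Function.Periodic.qParam 1 τ := by
  unfold ee Function.Periodic.qParam
  rw [Complex.ofReal_one, div_one]

theorem hasSum_wpTors_nat {N : ℕ} (hN : N ≠ 0) {r : ℕ} (hr : r < N) (s : ℤ) (τ : ℍ) :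
    HasSum (fun n : ℕ => wpCoeff N (r : ℤ) s n * ee (τ : ℂ) ^ n)
      (wpTors N (r : ℤ) s (scaleH N hN τ)) := by
  have hτ : 0 < (τ : ℂ).im := τ.im_pos
  have ht : ‖ee (τ : ℂ)‖ < 1 := norm_ee_lt_one hτ
  have h1 := hasSum_lamCoeff (clsP N (r : ZMod N)) (norm_zetaN_le N s) ht
  have h2 := hasSum_lamCoeff (clsP N (-(r : ZMod N))) (norm_zetaN_inv_le N s) ht
  have h3 := hasSum_lamCoeff (clsP N (0 : ZMod N)) (c := 1) (by rw [norm_one]) ht
  have h4 : HasSum (fun n : ℕ => (if n = 0 then 12 * headC N r s + 1 else 0) * ee (τ : ℂ) ^ n)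
      (12 * headC N r s + 1) := by
    have h5 := hasSum_ite_eq (0 : ℕ) (12 * headC N r s + 1)
    refine h5.congr_fun ?_
    intro n
    by_cases hn : n = 0
    · subst hn
      simp
    · simp [hn]
  have h6 := (((h1.add h2).mul_left 12).sub (h3.mul_left 24)).add h4
  have hval : wpTors N (r : ℤ) s (scaleH N hN τ) =
      12 * (lamSum (clsP N (r : ZMod N)) (zetaN N s) (ee (τ : ℂ))
        + lamSum (clsP N (-(r : ZMod N))) (zetaN N s)⁻¹ (ee (τ : ℂ)))
      - 24 * lamSum (clsP N (0 : ZMod N)) 1 (ee (τ : ℂ)) + (12 * headC N r s + 1) := by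
    rw [wpTors_eq_gfun]
    unfold gfun
    rw [coe_scaleH, wpE_scale hN hr s hτ, EisensteinSeries.E2_eq_tsum_cexp]
    have h7 := tsum_sigma_eq_lamSum hN hτ
    unfold ee at h7 ⊢
    rw [coe_scaleH, h7]
    ring
  rw [hval]
  refine h6.congr_fun ?_
  intro n
  rw [← rawCoeff_eq hr s n]
  unfold rawCoeff
  ring

theorem wpCoeff_congr {N : ℕ} {r r' : ℤ} (s : ℤ) (h : (N : ℤ) ∣ r' - r) :
    wpCoeff N r' s = wpCoeff N r s := by
  have hcast : ((r' : ℤ) : ZMod N) = ((r : ℤ) : ZMod N) :=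
    ((ZMod.intCast_eq_intCast_iff_dvd_sub r r' N).mpr h).symm
  have hdvd : ((N : ℤ) ∣ r') ↔ ((N : ℤ) ∣ r) := by
    constructor
    · intro h1
      have := dvd_sub h1 h
      simpa using this
    · intro h1
      have := dvd_add h h1
      simpa using this
  funext n
  unfold wpCoeff
  simp only [hcast, hdvd]

/-- **the `q`-expansion of the division values** (as a convergent series, all `(r, s) ≢ 0`) -/
theorem hasSum_wpTors_scale {N : ℕ} (hN : N ≠ 0) {r s : ℤ} (h : Prim N r s) (τ : ℍ) :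
    HasSum (fun n : ℕ => wpCoeff N r s n * Function.Periodic.qParam 1 (τ : ℂ) ^ n)
      (wpTors N r s (scaleH N hN τ)) := by
  obtain ⟨r', hr', hdvd⟩ := exists_nat_rep hN r
  rw [← wpTors_congr hN h hdvd (by rw [sub_self]; exact dvd_zero _) (scaleH N hN τ),
    ← wpCoeff_congr s hdvd, ← ee_eq_qParam]
  exact hasSum_wpTors_nat hN hr' s τ

/-! ### The `q`-expansion as a power series -/

theorem qExpansion_eq_of_hasSum {f : ℍ → ℂ} {c : ℕ → ℂ} (hhol : MDiff f)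
    (hf : ∀ τ : ℍ, HasSum (fun m : ℕ => c m * Function.Periodic.qParam 1 (τ : ℂ) ^ m) (f τ)) :
    qExpansion 1 f = PowerSeries.mk c := by
  have hf' : ∀ τ : ℍ, HasSum (fun m : ℕ => c m • Function.Periodic.qParam 1 (τ : ℂ) ^ m) (f τ) :=
    hf
  have hbdd : IsBoundedAtImInfty f := isBoundedAtImInfty_of_hasSum_qExpansion one_pos hf'
  have hper : Function.Periodic (f ∘ ofComplex) (1 : ℝ) := by
    intro w
    by_cases hw : 0 < w.im
    · have hw1 : 0 < (w + ((1 : ℝ) : ℂ)).im := by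
        rw [Complex.add_im, Complex.ofReal_im, add_zero]
        exact hw
      show f (ofComplex (w + ((1 : ℝ) : ℂ))) = f (ofComplex w)
      rw [ofComplex_apply_of_im_pos hw1, ofComplex_apply_of_im_pos hw]
      have h1 := hf ⟨w + ((1 : ℝ) : ℂ), hw1⟩
      have h2 := hf ⟨w, hw⟩
      have e : Function.Periodic.qParam 1 (w + ((1 : ℝ) : ℂ)) = Function.Periodic.qParam 1 w := by
        rw [← ee_eq_qParam, ← ee_eq_qParam, Complex.ofReal_one, ee_add_one]
      have h1' : HasSum (fun m : ℕ => c m * Function.Periodic.qParam 1 w ^ m)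
          (f ⟨w + ((1 : ℝ) : ℂ), hw1⟩) := by
        rw [← e]
        exact h1
      exact h1'.unique h2
    · have hw' : w.im ≤ 0 := not_lt.mp hw
      have hw1 : (w + ((1 : ℝ) : ℂ)).im ≤ 0 := by
        rw [Complex.add_im, Complex.ofReal_im, add_zero]
        exact hw'
      show f (ofComplex (w + ((1 : ℝ) : ℂ))) = f (ofComplex w)
      rw [ofComplex_apply_of_im_nonpos hw1, ofComplex_apply_of_im_nonpos hw']
  have han : AnalyticAt ℂ (cuspFunction 1 f) 0 :=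
    UpperHalfPlane.analyticAt_cuspFunction_zero one_pos hper hhol hbdd
  refine PowerSeries.ext (fun m => ?_)
  rw [PowerSeries.coeff_mk, UpperHalfPlane.qExpansion_coeff]
  have h1 := (hasFPowerSeriesOnBall_cuspFunction one_pos han hf').hasFPowerSeriesAt
  have h2 := han.hasFPowerSeriesAt
  have h3 := h1.eq_formalMultilinearSeries h2
  have h4 := congr_arg (fun p => FormalMultilinearSeries.coeff p m) h3
  simp only [FormalMultilinearSeries.coeff_ofScalars] at h4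
  rw [h4, div_eq_inv_mul]

theorem mdiff_scale {N : ℕ} (hN : N ≠ 0) {g : ℍ → ℂ} (hg : MDiff g) :
    MDiff (fun τ : ℍ => g (scaleH N hN τ)) := by
  rw [UpperHalfPlane.mdifferentiable_iff] at hg ⊢
  have hmap : Set.MapsTo (fun z : ℂ => (N : ℂ) * z) {z : ℂ | 0 < z.im} {z : ℂ | 0 < z.im} :=
    fun z hz => im_scale hN hz
  have hd : DifferentiableOn ℂ (fun z : ℂ => (N : ℂ) * z) {z : ℂ | 0 < z.im} :=
    (differentiable_id.const_mul (N : ℂ)).differentiableOn
  refine (hg.comp hd hmap).congr ?_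
  intro z hz
  have hz' : 0 < z.im := hz
  show g (scaleH N hN (ofComplex z)) = g (ofComplex ((N : ℂ) * z))
  rw [ofComplex_apply_of_im_pos hz', ofComplex_apply_of_im_pos (im_scale hN hz')]
  rfl

/-- **the `q`-expansion of the division values** (all `(r, s) ≢ 0 mod N`) -/
theorem qExpansion_wpTors_scale {N : ℕ} (hN : N ≠ 0) {r s : ℤ} (h : Prim N r s) :
    qExpansion 1 (fun τ : ℍ => wpTors N r s (scaleH N hN τ)) = PowerSeries.mk (wpCoeff N r s) :=
  qExpansion_eq_of_hasSum (mdiff_scale hN (mdiff_wpTors hN h)) (hasSum_wpTors_scale hN h)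

end Fermat.Agent.S48.B.B1.Wp.QExp
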