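import Mathlib
import Fermat.Prelude.Def_ModularForm_HeckeOperator
import Fermat.Prelude.Sol.S_ModularFormClass_isBoundedAt_heckeT
import Fermat.Agent.S48.B.B1.Seams
import Fermat.Agent.S48.B.B1.Wp.QExp

/-!
# PROJECT D, part B, block B1, brick W: the Weierstrass forms `℘_a` on `Γ₁(M)`

* `wpMF hN h : ModularForm Γ(N) 2` : the division value `wpTors N r s`, `(r, s) ≢ 0 mod N`;
* `wpP M a = τ ↦ wpTors M a 0 (M τ)` : weight `2` on `Γ₁(M)` (translate by `diag(M, 1)`),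
  `q`-expansion `wpSeries M a`, and `wpP M a ∣[2] σ = wpP M (σ₀₀ a)` for `σ ∈ Γ₀(M)`;
* `wpForms M : Seams.WpForms M`.
-/

set_option autoImplicit false

open Complex Filter Topology

open UpperHalfPlane hiding I

open CongruenceSubgroup Matrix.SpecialLinearGroup ModularForm

open scoped MatrixGroups ModularForm Manifold

noncomputable section

namespace Fermat.Agent.S48.B.B1.Wp.Forms

open Fermat.Agent.S48.Eis1.KronZ Fermat.Agent.S48.Eis1.KronTors
open Fermat.Agent.S48.B.B1.Wp.Tors Fermat.Agent.S48.B.B1.Wp.Holo Fermat.Agent.S48.B.B1.Wp.QExp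
open Fermat.Agent.S20 Fermat.Agent.S23.QRing Fermat.Agent.S48.B.Defs.Model
open Fermat.Agent.S48.B.B1

/-! ### The forms of level `Γ(N)` -/

/-- the division value `wpTors N r s` as a modular form of weight `2` on `Γ(N)` -/
def wpMF {N : ℕ} (hN : N ≠ 0) {r s : ℤ} (h : Prim N r s) :
    ModularForm ((Gamma N : Subgroup SL(2, ℤ)) : Subgroup (GL (Fin 2) ℝ)) 2 where
  toFun := wpTors N r s
  slash_action_eq' := by
    rintro γ' ⟨γ, hγ, rfl⟩
    have hm := Gamma_mem.mp hγ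
    have h1 := wpTors_slash hN h γ
    have h2 : wpTors N (r * γ 0 0 + s * γ 1 0) (r * γ 0 1 + s * γ 1 1) = wpTors N r s := by
      funext τ
      refine wpTors_congr hN h ?_ ?_ τ
      · rw [← ZMod.intCast_eq_intCast_iff_dvd_sub]
        push_cast
        rw [hm.1, hm.2.2.1]
        ring
      · rw [← ZMod.intCast_eq_intCast_iff_dvd_sub]
        push_cast
        rw [hm.2.1, hm.2.2.2]
        ring
    exact h1.trans h2
  holo' := mdiff_wpTors hN h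
  bdd_at_cusps' {c} hc := by
    have hc' := hc.mono (Subgroup.map_le_range _ _)
    rw [OnePoint.isBoundedAt_iff_forall_SL2Z hc']
    intro γ _
    rw [wpTors_slash hN h γ]
    exact isBoundedAtImInfty_wpTors hN (h.mul γ)

@[simp]
theorem coe_wpMF {N : ℕ} (hN : N ≠ 0) {r s : ℤ} (h : Prim N r s) :
    (wpMF hN h : ℍ → ℂ) = wpTors N r s := rfl

/-! ### Conjugation by `diag(M, 1)` -/

/-- `(α, Mβ; e, δ)` for `(α, β; Me, δ)` -/
def conjM (M : ℕ) (σ : SL(2, ℤ)) (e : ℤ) (he : σ 1 0 = M * e) : SL(2, ℤ) :=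
  ⟨!![σ 0 0, M * σ 0 1; e, σ 1 1], by
    have hdet := σ.det_coe
    rw [Matrix.det_fin_two] at hdet
    rw [Matrix.det_fin_two_of]
    linear_combination hdet + (σ 0 1) * he⟩

theorem conjM_00 (M : ℕ) (σ : SL(2, ℤ)) (e : ℤ) (he : σ 1 0 = M * e) :
    (conjM M σ e he) 0 0 = σ 0 0 := rfl

theorem conjM_01 (M : ℕ) (σ : SL(2, ℤ)) (e : ℤ) (he : σ 1 0 = M * e) :
    (conjM M σ e he) 0 1 = M * σ 0 1 := rfl

theorem conjM_10 (M : ℕ) (σ : SL(2, ℤ)) (e : ℤ) (he : σ 1 0 = M * e) :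
    (conjM M σ e he) 1 0 = e := rfl

theorem conjM_11 (M : ℕ) (σ : SL(2, ℤ)) (e : ℤ) (he : σ 1 0 = M * e) :
    (conjM M σ e he) 1 1 = σ 1 1 := rfl

theorem heckeDiag_mul_mapGL {M : ℕ} (hM : M ≠ 0) (σ : SL(2, ℤ)) (e : ℤ) (he : σ 1 0 = M * e) :
    heckeDiagMatrix M * mapGL ℝ σ = mapGL ℝ (conjM M σ e he) * heckeDiagMatrix M := by
  ext i j
  fin_cases i <;> fin_cases j <;>
    simp [hM, Matrix.mul_apply, Fin.sum_univ_two, conjM_00, conjM_01, conjM_10, conjM_11]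
  all_goals first
    | (have := congrArg (Int.cast : ℤ → ℝ) he; push_cast at this ⊢; linear_combination this)
    | (have := congrArg (Int.cast : ℤ → ℝ) he; push_cast at this ⊢; linear_combination -this)
    | ring1

/-! ### The family on `Γ₁(M)` -/

section family

variable (M : ℕ) [NeZero M]

theorem prim_val {a : ZMod M} (ha : a ≠ 0) : Prim M ((a.val : ℕ) : ℤ) 0 := by
  intro h
  apply ha
  have h1 : (((a.val : ℕ) : ℤ) : ZMod M) = 0 := (ZMod.intCast_zmod_eq_zero_iff_dvd _ M).mpr h.1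
  rw [Int.cast_natCast, ZMod.natCast_zmod_val] at h1
  exact h1

/-- `wpTors M a 0 ∣[2] diag(M, 1) = M · (τ ↦ wpTors M a 0 (M τ))` -/
def wpG (a : ZMod M) : ℍ → ℂ := wpTors M ((a.val : ℕ) : ℤ) 0 ∣[(2 : ℤ)] heckeDiagMatrix M

/-- **the action of `Γ₀(M)`** (on the unnormalised family) -/
theorem wpG_slash {a : ZMod M} (ha : a ≠ 0) {σ : SL(2, ℤ)} (hσ : σ ∈ Gamma0 M) :
    wpG M a ∣[(2 : ℤ)] σ = wpG M (((σ 0 0 : ℤ) : ZMod M) * a) := by
  have hM : M ≠ 0 := NeZero.ne M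
  rw [Gamma0_mem] at hσ
  obtain ⟨e, he⟩ := (ZMod.intCast_zmod_eq_zero_iff_dvd _ M).mp hσ
  unfold wpG
  show (wpTors M ((a.val : ℕ) : ℤ) 0 ∣[(2 : ℤ)] heckeDiagMatrix M) ∣[(2 : ℤ)] (mapGL ℝ σ) = _
  rw [← SlashAction.slash_mul, heckeDiag_mul_mapGL hM σ e he, SlashAction.slash_mul]
  congr 1
  have h1 : wpTors M ((a.val : ℕ) : ℤ) 0 ∣[(2 : ℤ)] (mapGL ℝ (conjM M σ e he)) = _ :=
    wpTors_slash hM (prim_val M ha) (conjM M σ e he)
  rw [h1, conjM_00, conjM_01, conjM_10, conjM_11]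
  funext τ
  refine (wpTors_congr hM ?_ ?_ ?_ τ).symm
  · have := (prim_val M ha).mul (conjM M σ e he)
    rw [conjM_00, conjM_01, conjM_10, conjM_11] at this
    exact this
  · rw [← ZMod.intCast_eq_intCast_iff_dvd_sub]
    push_cast
    rw [ZMod.natCast_zmod_val, ZMod.natCast_zmod_val]
    ring
  · refine ⟨-(((a.val : ℕ) : ℤ) * σ 0 1), ?_⟩
    ring

/-- the Weierstrass forms `℘_a(τ) = 12 (2πi)⁻² ℘(aτ; ℤ + Mτℤ)` -/
def wpP (a : ZMod M) : ℍ → ℂ := ((M : ℂ)⁻¹) • wpG M a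

theorem wpP_apply (a : ZMod M) (τ : ℍ) :
    wpP M a τ = wpTors M ((a.val : ℕ) : ℤ) 0 (scaleH M (NeZero.ne M) τ) := by
  have hM : M ≠ 0 := NeZero.ne M
  have hMC : (M : ℂ) ≠ 0 := Nat.cast_ne_zero.mpr hM
  have hpt : heckeDiagMatrix M • τ = scaleH M hM τ :=
    UpperHalfPlane.ext (by rw [coe_heckeDiagMatrix_smul hM]; rfl)
  unfold wpP wpG
  rw [Pi.smul_apply, slash_heckeDiagMatrix_apply 2 hM, hpt, smul_eq_mul]
  have h21 : ((2 : ℤ) - 1) = 1 := by norm_num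
  rw [h21, zpow_one, ← mul_assoc, inv_mul_cancel₀ hMC, one_mul]

/-- **the action of `Γ₀(M)`** -/
theorem wpP_slash {a : ZMod M} (ha : a ≠ 0) {σ : SL(2, ℤ)} (hσ : σ ∈ Gamma0 M) :
    wpP M a ∣[(2 : ℤ)] σ = wpP M (((σ 0 0 : ℤ) : ZMod M) * a) := by
  unfold wpP
  rw [SL_smul_slash, wpG_slash M ha hσ]

/-- `wpG M a` as a modular form of weight `2` on `Γ₁(M)` -/
def wpGMF {a : ZMod M} (ha : a ≠ 0) : ModularForm (Seams.G1 M) 2 where
  toFun := wpG M a
  slash_action_eq' := by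
    rintro γ' ⟨γ, hγ, rfl⟩
    have hm := (Gamma1_mem M γ).mp hγ
    have h0 : γ ∈ Gamma0 M := Gamma0_mem.mpr hm.2.2
    have h1 := wpG_slash M ha h0
    rw [hm.1, one_mul] at h1
    exact h1
  holo' := (ModularFormClass.holo (wpMF (NeZero.ne M) (prim_val M ha))).slash 2 _
  bdd_at_cusps' {c} hc := by
    obtain ⟨g, hg⟩ :=
      P2MW.S_ModularFormClass_isBoundedAt_heckeT.ModularForm.S06W2.exists_heckeDiagMatrix_eq_map M
    have hc' : IsCusp c ((Gamma M : Subgroup SL(2, ℤ)) : Subgroup (GL (Fin 2) ℝ)) := by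
      rw [Subgroup.IsArithmetic.isCusp_iff_isCusp_SL2Z] at hc ⊢
      exact hc
    have h1 := P2MW.S_ModularFormClass_isBoundedAt_heckeT.ModularForm.S06W2.isBoundedAt_slash_ratCast
      (wpMF (NeZero.ne M) (prim_val M ha)) g hc'
    rw [← hg] at h1
    exact h1

theorem isMF_wpP {a : ZMod M} (ha : a ≠ 0) : IsMF (Seams.G1 M) 2 (wpP M a) :=
  ⟨((M : ℂ)⁻¹) • wpGMF M ha, rfl⟩

/-! ### The `q`-expansion -/

theorem zetaN_zero (N : ℕ) : zetaN N 0 = 1 := by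
  unfold zetaN
  rw [Int.cast_zero, zero_div, ee_zero]

theorem not_dvd_val {a : ZMod M} (ha : a ≠ 0) : ¬ ((M : ℤ) ∣ ((a.val : ℕ) : ℤ)) :=
  fun h => prim_val M ha ⟨h, dvd_zero _⟩

theorem wpCoeff_eq_coeff {a : ZMod M} (ha : a ≠ 0) (n : ℕ) :
    wpCoeff M ((a.val : ℕ) : ℤ) 0 n = (Seams.wpSeries M a).coeff n := by
  unfold Seams.wpSeries wpCoeff
  rw [PowerSeries.coeff_map, map_add, PowerSeries.coeff_one]
  have h12 : (12 : PowerSeries ℤ) = PowerSeries.C (12 : ℤ) := (map_ofNat PowerSeries.C 12).symm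
  rw [h12, PowerSeries.coeff_C_mul]
  unfold tateX
  rw [PowerSeries.coeff_mk, zetaN_zero, Int.cast_natCast, ZMod.natCast_zmod_val]
  rcases Nat.eq_zero_or_pos n with h0 | h0
  · subst h0
    rw [if_pos rfl, if_neg (not_dvd_val M ha), if_pos rfl, Nat.divisors_zero]
    simp
  · rw [if_neg (by omega), if_neg (by omega)]
    rw [add_zero, eq_intCast]
    simp only [Int.cast_mul, Int.cast_sum, Int.cast_add, Int.cast_sub, Int.cast_ite, Int.cast_one,
      Int.cast_zero, Int.cast_ofNat, Int.cast_natCast]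
    congr 1
    refine Finset.sum_congr rfl ?_
    intro d _
    rw [one_pow, inv_one, one_pow]

theorem qx_wpP {a : ZMod M} (ha : a ≠ 0) : qx (wpP M a) = Seams.wpSeries M a := by
  have h1 : wpP M a = fun τ : ℍ => wpTors M ((a.val : ℕ) : ℤ) 0 (scaleH M (NeZero.ne M) τ) :=
    funext (wpP_apply M a)
  show qExpansion 1 (wpP M a) = _
  rw [h1, qExpansion_wpTors_scale (NeZero.ne M) (prim_val M ha)]
  refine PowerSeries.ext (fun n => ?_)
  rw [PowerSeries.coeff_mk]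
  exact wpCoeff_eq_coeff M ha n

end family

/-- **(W)** the Weierstrass forms exist -/
theorem wpForms (M : ℕ) [NeZero M] : Seams.WpForms M :=
  ⟨wpP M, fun _ ha => ⟨isMF_wpP M ha, qx_wpP M ha⟩, fun _ ha _ hσ => wpP_slash M ha hσ⟩

end Fermat.Agent.S48.B.B1.Wp.Forms
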